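import Fermat.Agent.S58.CH.Main
import Fermat.Agent.S58.Contracts

/-!
# S58 / CH : Cayley-Hamilton for Frobenius for an arbitrary Weierstrass equation over `ZMod p` : `CHStatement`
-/

set_option autoImplicit false

namespace Fermat.Agent.S58

open WeierstrassCurve WeierstrassCurve.Affine Fermat.Agent.S52

theorem CH.Fr_eq_frobPt (p : ℕ) [Fact p.Prime] (C : WeierstrassCurve (ZMod p)) {Ω : Type*} [Field Ω]
    [DecidableEq Ω] [Algebra (ZMod p) Ω] (P : (C⁄Ω).Point) :
    CH.Fr C Ω P = frobPt p C P := by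
  have h : FiniteField.frobeniusAlgHom (ZMod p) Ω = frobAlg p Ω := by
    ext x
    rw [FiniteField.coe_frobeniusAlgHom, frobAlg_apply, ZMod.card]
  change Point.map (W' := C) (FiniteField.frobeniusAlgHom (ZMod p) Ω) P
    = Point.map (W' := C) (frobAlg p Ω) P
  rw [h]

/-- Cayley-Hamilton for Frobenius over an algebraically closed field of positive
transcendence degree. -/
theorem CH.frob_CH (p : ℕ) [Fact p.Prime] (C : WeierstrassCurve (ZMod p))
    (hΔ : C.Δ ≠ 0) {Ω : Type*} [Field Ω] [DecidableEq Ω] [Algebra (ZMod p) Ω]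
    [IsAlgClosed Ω] (τ : Ω) (hτ : Transcendental (ZMod p) τ) (P : (C⁄Ω).Point) :
    (2 : ℤ) • (frobPt p C (frobPt p C P)
      - ((p : ℤ) + 1 - Nat.card C.toAffine.Point) • frobPt p C P + (p : ℤ) • P)
      = 0 := by
  have h := CH.frobenius_CH (W := C) hΔ τ hτ P
  rw [two_zsmul]
  simp only [CH.al, CH.Fr_eq_frobPt, ZMod.card] at h
  exact h

/-- **[CH]**. -/
theorem chStatement : CHStatement := by
  intro p _ C hΔ Ω _ _ _ hΩ P
  classical
  obtain ⟨τ, hτ⟩ := hΩ
  let Ω' := AlgebraicClosure Ω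
  let ψ : Ω →ₐ[ZMod p] Ω' := IsScalarTower.toAlgHom (ZMod p) Ω Ω'
  have hτ' : Transcendental (ZMod p) (ψ τ) := by
    intro h
    exact hτ ((isAlgebraic_algHom_iff ψ ψ.injective).mp h)
  have hcomm : ∀ Q : (C⁄Ω).Point,
      Point.map (W' := C) ψ (frobPt p C Q)
        = frobPt p C (Point.map (W' := C) ψ Q) := by
    intro Q
    rw [← CH.Fr_eq_frobPt, ← CH.Fr_eq_frobPt]
    exact CH.map_Fr ψ Q
  have h := CH.frob_CH p C hΔ (ψ τ) hτ' (Point.map (W' := C) ψ P)
  apply Point.map_injective (W' := C) ψ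
  rw [map_zero, map_zsmul, map_add, map_sub, map_zsmul, map_zsmul, hcomm, hcomm]
  have ht : C.traceOfFrobenius = (p : ℤ) + 1 - Nat.card C.toAffine.Point := by
    rw [WeierstrassCurve.traceOfFrobenius, WeierstrassCurve.card, Nat.card_zmod]
  rw [ht]
  exact h

/-- the same under the name used by `Fermat/Agent/S58.lean`. -/
theorem CH.chStatement : CHStatement := Fermat.Agent.S58.chStatement

end Fermat.Agent.S58
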