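import Mathlib

/-!
# S58 / CH : from generic points to all points

An additive endomorphism `al` of `E(Ω)` (`Ω` algebraically closed, of positive transcendence degree over `k`) with
`2 al = 0` on the points with transcendental `x`-coordinate satisfies `2 al = 0`.
(Port of the second half of `S52/CH/Main.lean` to a general Weierstrass equation.)
-/

set_option autoImplicit false

namespace Fermat.Agent.S58.CH

open WeierstrassCurve WeierstrassCurve.Affine Polynomial

variable {k : Type*} [Field k] (E : WeierstrassCurve k)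

/-- the subgroup of points with algebraic coordinates -/
noncomputable def algPts (Ω : Type*) [Field Ω] [DecidableEq Ω] [Algebra k Ω] :
    AddSubgroup (E⁄Ω).Point :=
  letI : DecidableEq (algebraicClosure k Ω) := Classical.decEq _
  (Point.map (W' := E) (algebraicClosure k Ω).val).range

variable {E} {Ω : Type*} [Field Ω] [DecidableEq Ω] [Algebra k Ω]

omit [DecidableEq Ω] in
lemma AlgPts_isAlgebraic_y {x y : Ω} (h : (E⁄Ω).Equation x y) (hx : IsAlgebraic k x) :
    IsAlgebraic k y := by
  rw [equation_iff] at h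
  set K' := algebraicClosure k Ω with hK'
  have hx' : x ∈ K' := mem_algebraicClosure_iff.mpr hx
  have hc : ∀ c : k, algebraMap k Ω c ∈ K' := fun c => K'.algebraMap_mem c
  -- `y` is a root of a monic quadratic polynomial over `K'`
  let b : K' := ⟨algebraMap k Ω E.a₁ * x + algebraMap k Ω E.a₃,
    add_mem (mul_mem (hc _) hx') (hc _)⟩
  let c : K' := ⟨x ^ 3 + algebraMap k Ω E.a₂ * x ^ 2 + algebraMap k Ω E.a₄ * x + algebraMap k Ω E.a₆,
    add_mem (add_mem (add_mem (pow_mem hx' 3) (mul_mem (hc _) (pow_mem hx' 2)))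
      (mul_mem (hc _) hx')) (hc _)⟩
  have hy : IsAlgebraic K' y := by
    refine ⟨X ^ 2 + C b * X - C c, ?_, ?_⟩
    · intro h0
      have := congrArg (fun p => p.coeff 2) h0
      simp at this
    · simp only [map_add, map_sub, map_mul, map_pow, aeval_X, aeval_C]
      change y ^ 2 + (algebraMap k Ω E.a₁ * x + algebraMap k Ω E.a₃) * y
        - (x ^ 3 + algebraMap k Ω E.a₂ * x ^ 2 + algebraMap k Ω E.a₄ * x + algebraMap k Ω E.a₆) = 0
      have h' : y ^ 2 + algebraMap k Ω E.a₁ * x * y + algebraMap k Ω E.a₃ * y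
          = x ^ 3 + algebraMap k Ω E.a₂ * x ^ 2 + algebraMap k Ω E.a₄ * x + algebraMap k Ω E.a₆ := by
        simpa using h
      linear_combination h'
  exact hy.restrictScalars k

lemma mem_algPts_of_isAlgebraic {x y : Ω} (h : (E⁄Ω).Nonsingular x y)
    (hx : IsAlgebraic k x) : Point.some x y h ∈ algPts E Ω := by
  let _ : DecidableEq (algebraicClosure k Ω) := Classical.decEq _
  have hy : IsAlgebraic k y := AlgPts_isAlgebraic_y h.1 hx
  let x' : algebraicClosure k Ω := ⟨x, mem_algebraicClosure_iff.mpr hx⟩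
  let y' : algebraicClosure k Ω := ⟨y, mem_algebraicClosure_iff.mpr hy⟩
  have h' : (E⁄(algebraicClosure k Ω)).Nonsingular x' y' :=
    (Affine.baseChange_nonsingular E (algebraicClosure k Ω).val.injective x' y').mp h
  exact ⟨Point.some x' y' h', rfl⟩

lemma isAlgebraic_of_mem_algPts {x y : Ω} {h : (E⁄Ω).Nonsingular x y}
    (hm : Point.some x y h ∈ algPts E Ω) : IsAlgebraic k x := by
  let _ : DecidableEq (algebraicClosure k Ω) := Classical.decEq _
  obtain ⟨P, hP⟩ := hm
  rcases P with _ | ⟨x', y', h'⟩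
  · exact absurd hP.symm (Point.some_ne_zero _)
  · rw [Point.map_some, Point.some.injEq] at hP
    rw [← hP.1]
    exact mem_algebraicClosure_iff.mp x'.2

omit [DecidableEq Ω] in
/-- every `x` is the `x`-coordinate of a point. -/
lemma AlgPts_exists_point [IsAlgClosed Ω] (hΔ : E.Δ ≠ 0) (x : Ω) :
    ∃ y : Ω, (E⁄Ω).Nonsingular x y := by
  have hΔ' : (E⁄Ω).Δ ≠ 0 := by
    change (E.map (algebraMap k Ω)).Δ ≠ 0
    rw [WeierstrassCurve.map_Δ]
    exact fun h => hΔ ((algebraMap k Ω).injective (by rw [h, map_zero]))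
  obtain ⟨y, hy⟩ := IsAlgClosed.exists_root
    (X ^ 2 + C (algebraMap k Ω E.a₁ * x + algebraMap k Ω E.a₃) * X
      - C (x ^ 3 + algebraMap k Ω E.a₂ * x ^ 2 + algebraMap k Ω E.a₄ * x + algebraMap k Ω E.a₆) : Polynomial Ω)
    (by
      have : (X ^ 2 + C (algebraMap k Ω E.a₁ * x + algebraMap k Ω E.a₃) * X
        - C (x ^ 3 + algebraMap k Ω E.a₂ * x ^ 2 + algebraMap k Ω E.a₄ * x
          + algebraMap k Ω E.a₆) : Polynomial Ω).degree = 2 := by compute_degree!
      rw [this]; norm_num)
  refine ⟨y, (equation_iff_nonsingular_of_Δ_ne_zero hΔ').mp ?_⟩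
  rw [equation_iff]
  simp only [IsRoot.def, eval_sub, eval_add, eval_pow, eval_X, eval_mul, eval_C] at hy
  have : y ^ 2 + algebraMap k Ω E.a₁ * x * y + algebraMap k Ω E.a₃ * y
      = x ^ 3 + algebraMap k Ω E.a₂ * x ^ 2 + algebraMap k Ω E.a₄ * x + algebraMap k Ω E.a₆ := by
    linear_combination hy
  simpa using this

/-- **from generic points to all points.** -/
theorem two_nsmul_eq_zero_of_generic [IsAlgClosed Ω] (hΔ : E.Δ ≠ 0) (τ : Ω)
    (hτ : Transcendental k τ) (al : (E⁄Ω).Point →+ (E⁄Ω).Point)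
    (hgen : ∀ (x y : Ω) (h : (E⁄Ω).Nonsingular x y), Transcendental k x →
      al (Point.some x y h) + al (Point.some x y h) = 0) (P : (E⁄Ω).Point) :
    al P + al P = 0 := by
  obtain ⟨y', hns⟩ := AlgPts_exists_point (E := E) hΔ τ
  set η' : (E⁄Ω).Point := Point.some τ y' hns with hη'
  have hgen0 : al η' + al η' = 0 := hgen _ _ hns hτ
  by_cases hP : P ∈ algPts E Ω
  · have hsum : P + η' ∉ algPts E Ω := by
      intro hs
      have : η' ∈ algPts E Ω := by
        have := (algPts E Ω).sub_mem hs hP
        simpa using this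
      exact hτ (isAlgebraic_of_mem_algPts this)
    have hgen2 : al (P + η') + al (P + η') = 0 := by
      rcases hQ : P + η' with _ | ⟨x, y, h⟩
      · exact absurd (hQ ▸ (algPts E Ω).zero_mem) hsum
      · apply hgen _ _ h
        intro halg
        exact hsum (hQ ▸ mem_algPts_of_isAlgebraic h halg)
    have e : al P = al (P + η') - al η' := by
      rw [← map_sub]; simp
    rw [e]
    have : al (P + η') - al η' + (al (P + η') - al η')
        = (al (P + η') + al (P + η')) - (al η' + al η') := by abel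
    rw [this, hgen0, hgen2, sub_zero]
  · rcases P with _ | ⟨x, y, h⟩
    · exact absurd (algPts E Ω).zero_mem hP
    · apply hgen _ _ h
      intro halg
      exact hP (mem_algPts_of_isAlgebraic h halg)

end Fermat.Agent.S58.CH
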