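import Fermat.Agent.S58.CH.CountDefs

/-!
# S58 / CH-COUNT-1 : the norm of `y^n`, the trace form of `G`, the degree of the numerator
-/

set_option autoImplicit false

namespace Fermat.Agent.S58.CH

open Polynomial

variable {k : Type*} [Field k] (W : WeierstrassCurve k)

/-- `N(y^n) = (-f)^n`.  PROOF: induction, `An_succ`, `Bn_succ`, `pow_succ`, `linear_combination (-fp W) * ih`
(check the sign with `ring`). -/
lemma norm_AB (n : ℕ) :
    An W n ^ 2 - An W n * Bn W n * Lp W - Bn W n ^ 2 * fp W = (-fp W) ^ n := by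
  induction n with
  | zero => simp
  | succ n ih =>
    rw [An_succ, Bn_succ, pow_succ]
    linear_combination (-fp W) * ih

/-- degrees: `2 deg A_(n+1) ≤ 3 (n+1)`, `2 deg B_(n+1) ≤ 3 n`.  PROOF: induction on `n` (`A_1 = 0`, `B_1 = 1`),
`natDegree_mul_le`, `natDegree_sub_le`, `natDegree_fp`, `natDegree_Lp_le`. -/
lemma natDegree_AB (n : ℕ) :
    2 * (An W (n + 1)).natDegree ≤ 3 * (n + 1) ∧ 2 * (Bn W (n + 1)).natDegree ≤ 3 * n := by
  induction n with
  | zero =>
    rw [An_succ, Bn_succ]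
    simp
  | succ n ih =>
    obtain ⟨ihA, ihB⟩ := ih
    constructor
    · rw [An_succ W (n + 1)]
      have h1 := natDegree_mul_le (p := fp W) (q := Bn W (n + 1))
      rw [natDegree_fp] at h1
      omega
    · rw [Bn_succ W (n + 1)]
      have h1 := natDegree_sub_le (An W (n + 1)) (Lp W * Bn W (n + 1))
      have h2 := natDegree_mul_le (p := Lp W) (q := Bn W (n + 1))
      have h3 := natDegree_Lp_le W
      rcases le_max_iff.1 h1 with h | h <;> omega

variable [Fintype k]

/-- `(-f)^q = -f^q` (`q` odd or characteristic 2).  PROOF: `-f = C (-1) * f`, `mul_pow`, `← C_pow`,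
`FiniteField.pow_card`. -/
lemma neg_pow_card (f : k[X]) : (-f) ^ Fintype.card k = -f ^ Fintype.card k := by
  have h : -f = C (-1 : k) * f := by simp
  rw [h, mul_pow, ← C_pow, FiniteField.pow_card]
  simp

/-- `G = f^q + f + Tr(y^(q+1))`.  PROOF: unfold `Gp SA SB`, `An_succ`, `Bn_succ`; `linear_combination` of
`norm_AB W q` and `neg_pow_card`. -/
lemma Gp_eq : Gp W (Fintype.card k) = fp W ^ Fintype.card k + fp W
    + (2 * An W (Fintype.card k + 1) - Lp W * Bn W (Fintype.card k + 1)) := by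
  have h1 := norm_AB W (Fintype.card k)
  rw [neg_pow_card] at h1
  unfold Gp SA SB
  rw [An_succ, Bn_succ]
  linear_combination -h1

/-- `f^q = f(X^q)`.  PROOF: `← FiniteField.expand_card`, `simp [fp]` (as in `S52.CH.manin_natDegree_num`). -/
lemma fp_pow_card : fp W ^ Fintype.card k = (X ^ Fintype.card k) ^ 3 + C W.a₂ * (X ^ Fintype.card k) ^ 2
    + C W.a₄ * X ^ Fintype.card k + C W.a₆ := by
  rw [← FiniteField.expand_card]
  simp [fp]

/-- **the numerator is of degree `2 q + 1`.**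
PROOF: `Num = X^(2q+1) + (X^(q+2) - X^3 + a₄ X^q + a₆ + 2 a₂ X^(q+1) - a₂ X^2 + f + (2 A_(q+1) - L B_(q+1)))` (by
`Gp_eq`, `fp_pow_card`, `ring`), the bracket has `natDegree ≤ 2 q` (`natDegree_AB W q`: `2 deg ≤ 3 q + 3 ≤ 4 q + 1`
because `2 ≤ q = Fintype.card k`, `Fintype.one_lt_card`), `natDegree_add_eq_left_of_natDegree_lt`.
Template: `S52.CH.manin_natDegree_num`. -/
theorem natDegree_Nump : (Nump W (Fintype.card k)).natDegree = 2 * Fintype.card k + 1 := by
  have hq : 2 ≤ Fintype.card k := Fintype.one_lt_card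
  set q := Fintype.card k with hqdef
  set E : k[X] := X ^ (q + 2) - X ^ 3 + C W.a₄ * X ^ q + C W.a₆ + 2 * C W.a₂ * X ^ (q + 1)
    - C W.a₂ * X ^ 2 + fp W with hE
  set Tr : k[X] := 2 * An W (q + 1) - Lp W * Bn W (q + 1) with hTr
  have hdec : Nump W q = X ^ (2 * q + 1) + (E + Tr) := by
    unfold Nump
    rw [hqdef, Gp_eq, fp_pow_card, ← hqdef, hE, hTr]
    ring
  have hEdeg : E.natDegree ≤ 2 * q := by
    rw [hE]
    unfold fp
    compute_degree
    all_goals omega
  have hTrdeg : Tr.natDegree ≤ 2 * q := by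
    obtain ⟨hA, hB⟩ := natDegree_AB W q
    have h1 := natDegree_sub_le (2 * An W (q + 1)) (Lp W * Bn W (q + 1))
    have h2 := natDegree_mul_le (p := Lp W) (q := Bn W (q + 1))
    have h3 := natDegree_Lp_le W
    have h4 := natDegree_mul_le (p := (2 : k[X])) (q := An W (q + 1))
    have h5 : (2 : k[X]).natDegree = 0 := natDegree_ofNat 2
    rw [hTr]
    rcases le_max_iff.1 h1 with h | h <;> omega
  have hsum : (E + Tr).natDegree ≤ 2 * q := natDegree_add_le_of_degree_le hEdeg hTrdeg
  rw [hdec, natDegree_add_eq_left_of_natDegree_lt, natDegree_X_pow]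
  rw [natDegree_X_pow]
  omega

end Fermat.Agent.S58.CH
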