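import Fermat.Agent.S58.CH.CountDefs

/-!
# S58 / CH-COUNT-2 : local analysis of `G` at `X = c` when there is a rational point above `c`
-/

set_option autoImplicit false

namespace Fermat.Agent.S58.CH

open Polynomial

variable {k : Type*} [Field k] (W : WeierstrassCurve k)

/-- `T^n ≡ A_n(c) + B_n(c) T` modulo `T² + L(c) T - f(c)`.
PROOF: induction: `T^(n+1) - (A_(n+1)(c) + B_(n+1)(c) T) = T (T^n - A_n(c) - B_n(c) T) + B_n(c) (T² + L(c) T - f(c))`. -/
lemma dvd_pow_sub (c : k) (n : ℕ) :
    (X ^ 2 + C ((Lp W).eval c) * X - C ((fp W).eval c) : k[X]) ∣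
      X ^ n - (C ((An W n).eval c) + C ((Bn W n).eval c) * X) := by
  induction n with
  | zero => simp
  | succ n ih =>
    have e : (X ^ (n + 1) - (C ((An W (n + 1)).eval c) + C ((Bn W (n + 1)).eval c) * X) : k[X]) =
        X * (X ^ n - (C ((An W n).eval c) + C ((Bn W n).eval c) * X)) +
          C ((Bn W n).eval c) * (X ^ 2 + C ((Lp W).eval c) * X - C ((fp W).eval c)) := by
      rw [An_succ, Bn_succ, eval_mul, eval_sub, eval_mul, C_mul, C_sub, C_mul]
      ring
    rw [e]
    exact dvd_add (Dvd.dvd.mul_left ih _) (Dvd.intro_left _ rfl)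

variable [Fintype k]

/-- at a rational point: `β = β^q = A_q(c) + B_q(c) β`.
PROOF: `pow_eq_AB W (evalRingHom c) β`, `FiniteField.pow_card`. -/
lemma eval_AB_of_point {c β : k} (hβ : β ^ 2 + (Lp W).eval c * β = (fp W).eval c) :
    (An W (Fintype.card k)).eval c + (Bn W (Fintype.card k)).eval c * β = β := by
  have h := pow_eq_AB W (evalRingHom c) β hβ (Fintype.card k)
  rw [FiniteField.pow_card] at h
  exact h.symm

/-- two rational points above `c`: `G(c) = (β - β')² ≠ 0`.
PROOF: `β + β' = -L(c)`, `β β' = -f(c)` (subtract the two equations, divide by `β - β'`);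
`S_A(c) + S_B(c) β = 2 β + L(c) = β - β'`, `S_A(c) + S_B(c) β' = β' - β` (`eval_AB_of_point`);
`G(c) = -(S_A + S_B β)(S_A + S_B β')`. -/
theorem local_two {c β β' : k} (hβ : β ^ 2 + (Lp W).eval c * β = (fp W).eval c)
    (hβ' : β' ^ 2 + (Lp W).eval c * β' = (fp W).eval c) (hne : β ≠ β') :
    (Gp W (Fintype.card k)).eval c ≠ 0 := by
  have h1 := eval_AB_of_point W hβ
  have h2 := eval_AB_of_point W hβ'
  have hd : β - β' ≠ 0 := sub_ne_zero.2 hne
  have hsum : β + β' + (Lp W).eval c = 0 := by
    apply mul_left_cancel₀ hd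
    linear_combination hβ - hβ'
  have hb : (Bn W (Fintype.card k)).eval c = 1 := by
    apply mul_right_cancel₀ hd
    linear_combination h1 - h2
  have ha : (An W (Fintype.card k)).eval c = 0 := by
    rw [hb] at h1
    linear_combination h1
  have hG : (Gp W (Fintype.card k)).eval c = (β - β') ^ 2 := by
    simp only [Gp, SA, SB, eval_neg, eval_sub, eval_pow, eval_mul, eval_add, eval_one, ha, hb]
    rw [← hβ]
    have hl : (Lp W).eval c = -β - β' := by linear_combination hsum
    rw [hl]
    ring
  rw [hG]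
  exact pow_ne_zero 2 hd

/-- a double root: `B_q(c) = 0` and `A_q(c) = β`.
PROOF: `T² + L(c) T - f(c) = (T - β)²`; by `dvd_pow_sub`, `T^q - (A + B T) = (T - β)² h`; take the derivative and evaluate
at `β`: `q β^(q-1) - B = 0` and `(q : k) = 0` (`CharP.cast_card_eq_zero`); then `eval_AB_of_point`. -/
lemma eval_AB_of_double {c β : k} (hβ : β ^ 2 + (Lp W).eval c * β = (fp W).eval c)
    (h2 : 2 * β + (Lp W).eval c = 0) :
    (An W (Fintype.card k)).eval c = β ∧ (Bn W (Fintype.card k)).eval c = 0 := by
  obtain ⟨h, hh⟩ := dvd_pow_sub W c (Fintype.card k)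
  have hb : (Bn W (Fintype.card k)).eval c = 0 := by
    have h3 := congrArg (fun P : k[X] => (derivative P).eval β) hh
    simp only [derivative_sub, derivative_add, derivative_mul, derivative_X_pow, derivative_C,
      derivative_X, eval_sub, eval_add, eval_mul, eval_pow, eval_C, eval_X, eval_natCast,
      FiniteField.cast_card_eq_zero, map_natCast, eval_zero, eval_one] at h3
    have h4 : (2 : k) * β + eval c (Lp W) = 0 := h2
    have h5 : β ^ 2 + eval c (Lp W) * β - eval c (fp W) = 0 := by rw [hβ, sub_self]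
    simp only [Nat.cast_ofNat, Nat.add_one_sub_one, pow_one] at h3
    linear_combination (-1 : k) * h3 - eval β h * h4 - eval β (derivative h) * h5
  refine ⟨?_, hb⟩
  have h1 := eval_AB_of_point W hβ
  rw [hb] at h1
  linear_combination h1

/-- exactly one rational point above `c` (a ramification point): `G` has a SIMPLE zero at `c`.
PROOF: with `S_A(c) = β + L(c) = -β`, `S_B(c) = 1`, `L(c) = -2β`, `f(c) = -β²`, `L' = a₁`:
`G(c) = 0` and `G'(c) = f'(c) - a₁ β` (product rule: `simp [Gp, derivative_mul, ...]`, the terms with `S_A'`, `S_B'` cancel). -/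
theorem local_one {c β : k} (hβ : β ^ 2 + (Lp W).eval c * β = (fp W).eval c)
    (h2 : 2 * β + (Lp W).eval c = 0) (hns : W.a₁ * β ≠ 3 * c ^ 2 + 2 * W.a₂ * c + W.a₄) :
    (Gp W (Fintype.card k)).eval c = 0 ∧ (derivative (Gp W (Fintype.card k))).eval c ≠ 0 := by
  obtain ⟨ha, hb⟩ := eval_AB_of_double W hβ h2
  have hl : (Lp W).eval c = -2 * β := by linear_combination h2
  have hf : (fp W).eval c = -β ^ 2 := by rw [← hβ, hl]; ring
  have hSA : (SA W (Fintype.card k)).eval c = -β := by
    simp only [SA, eval_add, ha, hl]; ring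
  have hSB : (SB W (Fintype.card k)).eval c = 1 := by
    simp only [SB, eval_add, hb, eval_one, zero_add]
  have hL' : (derivative (Lp W)).eval c = W.a₁ := by simp [Lp]
  have hf' : (derivative (fp W)).eval c = 3 * c ^ 2 + 2 * W.a₂ * c + W.a₄ := by
    simp [fp]; ring
  constructor
  · simp only [Gp, eval_neg, eval_sub, eval_pow, eval_mul, hSA, hSB, hl, hf]
    ring
  · have hG : (derivative (Gp W (Fintype.card k))).eval c =
        (3 * c ^ 2 + 2 * W.a₂ * c + W.a₄) - W.a₁ * β := by
      simp only [Gp, derivative_neg, derivative_sub, derivative_mul, derivative_pow, eval_neg,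
        eval_sub, eval_add, eval_mul, eval_pow, eval_natCast, map_natCast, hSA, hSB, hl, hf,
        hL', hf']
      push_cast
      ring
    rw [hG]
    exact sub_ne_zero.2 (Ne.symm hns)

end Fermat.Agent.S58.CH
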