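import Fermat.Agent.S58.CH.CountDefs
import Fermat.Agent.S52.CH.Manin

/-!
# S58 / CH-COUNT-3 : local analysis of `G` at `X = c` when there is NO rational point above `c`
-/

set_option autoImplicit false

namespace Fermat.Agent.S58.CH

open Polynomial

variable {k : Type*} [Field k] [Fintype k] (W : WeierstrassCurve k)

/-- abstract form: `g = T² + ℓ T - e` without root in `k = F_q`, `T^q ≡ a + b T mod g` ⇒ `a = -ℓ`, `b = -1`.
PROOF: `g` is irreducible (`Monic.irreducible_iff_roots_eq_zero_of_degree_le_three`), `k₂ := AdjoinRoot g` is a field,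
`r := root g`.  `r^q` is a root of `g` (`FiniteField.frobeniusAlgHom k k₂` is a `k`-algebra hom), and
`g = (T - r)(T + ℓ + r)` over `k₂`, so `r^q = r` or `r^q = -ℓ - r`.  If `r^q = r` then `r` is a root of
`T^q - T = ∏_{a ∈ k} (T - a)` (`S52.CH.manin_prod_X_sub_C` mapped to `k₂`, or `FiniteField.roots_X_pow_card_sub_X`), so
`r = algebraMap a` and `a` is a root of `g` in `k`: contradiction.  Hence `a + b r = -ℓ - r`
(`AdjoinRoot.mk_eq_mk`); if `b + 1 ≠ 0` then `r ∈ k` again; so `b = -1`, `a = -ℓ`. -/
lemma frob_of_no_root (ℓ e a b : k) (hno : ∀ y : k, y ^ 2 + ℓ * y ≠ e)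
    (hdvd : (X ^ 2 + C ℓ * X - C e : k[X]) ∣ X ^ Fintype.card k - (C a + C b * X)) :
    a = -ℓ ∧ b = -1 := by
  classical
  let Ω := AlgebraicClosure k
  have hinj : Function.Injective (algebraMap k Ω) := (algebraMap k Ω).injective
  have hdeg : (X ^ 2 + C ℓ * X - C e : k[X]).degree ≠ 0 := by
    have h2 : (X ^ 2 + C ℓ * X - C e : k[X]).degree = 2 := by
      rw [sub_eq_add_neg, ← C_neg]
      have := degree_quadratic (a := (1 : k)) (b := ℓ) (c := -e) one_ne_zero
      rwa [C_1, one_mul] at this
    rw [h2]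
    norm_num
  obtain ⟨r, hr⟩ := IsAlgClosed.exists_aeval_eq_zero Ω _ hdeg
  have hr' : r ^ 2 + algebraMap k Ω ℓ * r - algebraMap k Ω e = 0 := by
    simpa using hr
  -- `r` is not rational
  have hnr : ∀ y : k, r ≠ algebraMap k Ω y := by
    rintro y rfl
    apply hno y
    apply hinj
    rw [map_add, map_mul, map_pow]
    exact sub_eq_zero.mp hr'
  -- `r ^ q = a + b r`
  have hq : r ^ Fintype.card k = algebraMap k Ω a + algebraMap k Ω b * r := by
    obtain ⟨h, hh⟩ := hdvd
    have h1 := congrArg (aeval r) hh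
    rw [map_mul, hr, zero_mul] at h1
    have h2 : r ^ Fintype.card k - (algebraMap k Ω a + algebraMap k Ω b * r) = 0 := by
      simpa using h1
    exact sub_eq_zero.mp h2
  -- `r ^ q` is a root
  have hs : (r ^ Fintype.card k) ^ 2 + algebraMap k Ω ℓ * r ^ Fintype.card k
      - algebraMap k Ω e = 0 := by
    have h1 := congrArg (FiniteField.frobeniusAlgHom k Ω) hr'
    rw [map_sub, map_add, map_mul, map_pow, AlgHom.commutes, AlgHom.commutes, map_zero] at h1
    exact h1
  have hprod : (r ^ Fintype.card k - r) * (r ^ Fintype.card k + r + algebraMap k Ω ℓ) = 0 := by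
    linear_combination hs - hr'
  rcases mul_eq_zero.mp hprod with h | h
  · exfalso
    have h1 := congrArg (aeval r) (S52.CH.manin_prod_X_sub_C (k := k))
    rw [map_prod] at h1
    have h2 : aeval r (X ^ Fintype.card k - X : k[X]) = 0 := by simpa using h
    rw [h2, Finset.prod_eq_zero_iff] at h1
    obtain ⟨c, -, hc⟩ := h1
    apply hnr c
    have : r - algebraMap k Ω c = 0 := by simpa using hc
    exact sub_eq_zero.mp this
  · rw [hq] at h
    have hb : b = -1 := by
      by_contra hb
      have hb1 : b + 1 ≠ 0 := fun h0 => hb (eq_neg_of_add_eq_zero_left h0)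
      apply hnr (-(a + ℓ) / (b + 1))
      have hb1' : algebraMap k Ω b + 1 ≠ 0 := by
        intro h0
        apply hb1
        apply hinj
        rw [map_add, map_one, map_zero, h0]
      rw [map_div₀, map_neg, map_add, map_add, map_one, eq_div_iff hb1']
      linear_combination h
    refine ⟨?_, hb⟩
    apply hinj
    rw [hb, map_neg, map_one] at h
    rw [map_neg]
    linear_combination h

end Fermat.Agent.S58.CH
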