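import Fermat.Agent.S58.CH.Count2
import Fermat.Agent.S58.CH.Count3

/-!
# S58 / CH-COUNT-4 : the trichotomy at `X = c` and the point count
-/

set_option autoImplicit false

namespace Fermat.Agent.S58.CH

open Polynomial

variable {k : Type*} [Field k] [Fintype k] (W : WeierstrassCurve k)

/-- the number of rational points above `c`. -/
noncomputable def eC (c : k) : ℕ :=
  Nat.card {y : k // y ^ 2 + W.a₁ * c * y + W.a₃ * y = c ^ 3 + W.a₂ * c ^ 2 + W.a₄ * c + W.a₆}

/-- no rational point above `c`: `(X - c)² ∣ G`.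
PROOF: `frob_of_no_root` with `dvd_pow_sub W c q` gives `A_q(c) = -L(c)`, `B_q(c) = -1`, i.e. `S_A(c) = S_B(c) = 0`, so
`X - C c ∣ SA`, `X - C c ∣ SB` (`dvd_iff_isRoot`), and `G = -(S_A² - S_A S_B L - S_B² f)`. -/
theorem local_zero {c : k} (hno : ∀ y : k, y ^ 2 + (Lp W).eval c * y ≠ (fp W).eval c) :
    (X - C c) ^ 2 ∣ Gp W (Fintype.card k) := by
  obtain ⟨hA, hB⟩ := frob_of_no_root _ _ _ _ hno (dvd_pow_sub W c (Fintype.card k))
  have h1 : X - C c ∣ SA W (Fintype.card k) := by
    rw [dvd_iff_isRoot, IsRoot.def, SA, eval_add, hA, neg_add_cancel]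
  have h2 : X - C c ∣ SB W (Fintype.card k) := by
    rw [dvd_iff_isRoot, IsRoot.def, SB, eval_add, hB, eval_one, neg_add_cancel]
  obtain ⟨u, hu⟩ := h1
  obtain ⟨v, hv⟩ := h2
  refine ⟨-(u ^ 2 - u * v * Lp W - v ^ 2 * fp W), ?_⟩
  rw [Gp, hu, hv]
  ring

/-- `Num ≡ G` modulo `(X - c)²`.  PROOF: `X - C c ∣ X^q - X` (`dvd_iff_isRoot`, `FiniteField.pow_card`). -/
lemma sq_dvd_Nump_sub (c : k) :
    (X - C c) ^ 2 ∣ Nump W (Fintype.card k) - Gp W (Fintype.card k) := by
  have h1 : X - C c ∣ (X ^ Fintype.card k - X : k[X]) := by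
    rw [dvd_iff_isRoot, IsRoot.def, eval_sub, eval_pow, eval_X, FiniteField.pow_card, sub_self]
  obtain ⟨u, hu⟩ := h1
  refine ⟨-(C W.a₂ + X ^ Fintype.card k + X) * u ^ 2, ?_⟩
  rw [Nump, hu]
  ring

/-- **the trichotomy.**
PROOF: the set `{y | y² + ℓ y = e}` (`ℓ = L(c) = a₁ c + a₃`, `e = f(c)`; `eval_Lp`, `eval_fp`) is empty, or `{β, -ℓ-β}`.
* empty: `eC = 0` (`Nat.card_eq_zero`/`Nat.card_of_isEmpty`), `local_zero` + `sq_dvd_Nump_sub`;
* `β ≠ -ℓ-β`: `eC = 2`, `local_two`; `Num(c) = G(c)` by `sq_dvd_Nump_sub`;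
* `β = -ℓ-β`: `eC = 1` (`Nat.card_unique`/`Nat.card_eq_one_iff_unique`), `local_one`; nonsingularity of `(c, β)`:
  `WeierstrassCurve.Affine.equation_iff_nonsingular_of_Δ_ne_zero hΔ`, `nonsingular_iff`; `Num(c) = G(c)`, `Num'(c) = G'(c)`
  (derivative of `(X - C c)^2 * w` vanishes at `c`: `S52.CH.manin_deriv_sq`). -/
theorem count_tri (hΔ : W.Δ ≠ 0) (c : k) :
    (eC W c = 2 ∧ (Nump W (Fintype.card k)).eval c ≠ 0) ∨
    (eC W c = 1 ∧ (Nump W (Fintype.card k)).eval c = 0 ∧
      (derivative (Nump W (Fintype.card k))).eval c ≠ 0) ∨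
    (eC W c = 0 ∧ (X - C c) ^ 2 ∣ Nump W (Fintype.card k)) := by
  have hiff : ∀ y : k, (y ^ 2 + W.a₁ * c * y + W.a₃ * y = c ^ 3 + W.a₂ * c ^ 2 + W.a₄ * c + W.a₆) ↔
      y ^ 2 + (Lp W).eval c * y = (fp W).eval c := by
    intro y
    rw [eval_Lp, eval_fp]
    constructor <;> intro h <;> linear_combination h
  obtain ⟨w, hw⟩ := sq_dvd_Nump_sub W c
  have hN : Nump W (Fintype.card k) = Gp W (Fintype.card k) + (X - C c) ^ 2 * w := by
    rw [← hw]; ring
  have hev : (Nump W (Fintype.card k)).eval c = (Gp W (Fintype.card k)).eval c := by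
    rw [hN]; simp
  have hdv : (derivative (Nump W (Fintype.card k))).eval c
      = (derivative (Gp W (Fintype.card k))).eval c := by
    rw [hN]; simp [derivative_mul, derivative_pow]
  by_cases hno : ∀ y : k, y ^ 2 + (Lp W).eval c * y ≠ (fp W).eval c
  · right; right
    refine ⟨?_, ?_⟩
    · have : IsEmpty {y : k // y ^ 2 + W.a₁ * c * y + W.a₃ * y
          = c ^ 3 + W.a₂ * c ^ 2 + W.a₄ * c + W.a₆} := ⟨fun y => hno y.1 ((hiff y.1).1 y.2)⟩
      exact Nat.card_of_isEmpty
    · rw [hN]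
      exact dvd_add (local_zero W hno) (Dvd.intro _ rfl)
  · have hex : ∃ β : k, β ^ 2 + (Lp W).eval c * β = (fp W).eval c := by
      by_contra h
      exact hno fun y hy => h ⟨y, hy⟩
    obtain ⟨β, hβ⟩ := hex
    have hβ' : (-(Lp W).eval c - β) ^ 2 + (Lp W).eval c * (-(Lp W).eval c - β) = (fp W).eval c := by
      rw [← hβ]; ring
    have hall : ∀ y : k, y ^ 2 + (Lp W).eval c * y = (fp W).eval c →
        y = β ∨ y = -(Lp W).eval c - β := by
      intro y hy
      have h0 : (y - β) * (y - (-(Lp W).eval c - β)) = 0 := by linear_combination hy - hβ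
      rcases mul_eq_zero.1 h0 with h | h
      · exact Or.inl (sub_eq_zero.1 h)
      · exact Or.inr (sub_eq_zero.1 h)
    by_cases hne : β = -(Lp W).eval c - β
    · right; left
      have h2 : 2 * β + (Lp W).eval c = 0 := by linear_combination hne
      have hns : W.a₁ * β ≠ 3 * c ^ 2 + 2 * W.a₂ * c + W.a₄ := by
        have heq : W.toAffine.Equation c β :=
          (WeierstrassCurve.Affine.equation_iff c β).2 ((hiff β).2 hβ)
        have hn := (WeierstrassCurve.Affine.equation_iff_nonsingular_of_Δ_ne_zero hΔ).1 heq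
        rw [WeierstrassCurve.Affine.nonsingular_iff] at hn
        rcases hn.2 with h | h
        · exact h
        · exfalso
          apply h
          rw [eval_Lp] at h2
          linear_combination h2
      obtain ⟨h3, h4⟩ := local_one W hβ h2 hns
      refine ⟨?_, by rw [hev, h3], by rw [hdv]; exact h4⟩
      rw [eC, Nat.card_eq_one_iff_unique]
      refine ⟨⟨fun y y' => Subtype.ext ?_⟩, ⟨⟨β, (hiff β).2 hβ⟩⟩⟩
      have e1 : ∀ y : k, y ^ 2 + (Lp W).eval c * y = (fp W).eval c → y = β := by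
        intro y hy
        rcases hall y hy with h | h
        · exact h
        · rw [h, ← hne]
      rw [e1 y.1 ((hiff _).1 y.2), e1 y'.1 ((hiff _).1 y'.2)]
    · left
      refine ⟨?_, by rw [hev]; exact local_two W hβ hβ' hne⟩
      rw [eC, Nat.card_eq_two_iff]
      refine ⟨⟨β, (hiff β).2 hβ⟩, ⟨-(Lp W).eval c - β, (hiff _).2 hβ'⟩, ?_, ?_⟩
      · intro h
        exact hne (congrArg Subtype.val h)
      · ext y
        simp only [Set.mem_insert_iff, Set.mem_singleton_iff, Set.mem_univ, iff_true]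
        rcases hall y.1 ((hiff _).1 y.2) with h | h
        · exact Or.inl (Subtype.ext h)
        · exact Or.inr (Subtype.ext h)

/-- the point count.  PROOF: copy of `S52.CH.manin_card_point` (equivalence with `Option (Σ c, {y // ..})`,
`WeierstrassCurve.Affine.equation_iff`, `equation_iff_nonsingular_of_Δ_ne_zero`). -/
theorem card_point (hΔ : W.Δ ≠ 0) : Nat.card W.toAffine.Point = 1 + ∑ c : k, eC W c := by
  classical
  let e : W.toAffine.Point ≃ Option (Σ c : k, {y : k // y ^ 2 + W.a₁ * c * y + W.a₃ * y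
      = c ^ 3 + W.a₂ * c ^ 2 + W.a₄ * c + W.a₆}) :=
    { toFun := fun P => match P with
        | .zero => none
        | .some x y h => some ⟨x, y, (WeierstrassCurve.Affine.equation_iff x y).mp h.1⟩
      invFun := fun o => match o with
        | none => .zero
        | some ⟨x, y, h⟩ => .some x y
            ((WeierstrassCurve.Affine.equation_iff_nonsingular_of_Δ_ne_zero hΔ).mp
              ((WeierstrassCurve.Affine.equation_iff x y).mpr h))
      left_inv := fun P => by cases P <;> rfl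
      right_inv := fun o => by
        rcases o with _ | ⟨x, y, h⟩ <;> rfl }
  rw [Nat.card_congr e, Finite.card_option, Nat.card_sigma, add_comm]
  rfl

end Fermat.Agent.S58.CH
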