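import Fermat.Agent.S58.CH.Count1
import Fermat.Agent.S58.CH.Count4
import Fermat.Agent.S52.CH.Manin

/-!
# S58 / CH-COUNT-5 : `deg x(Frob η - η) = #C(F_q)`  (assembly)
-/

set_option autoImplicit false

namespace Fermat.Agent.S58.CH

open Polynomial Fermat.Agent.S52.CH

variable {k : Type*} [Field k] [Fintype k] (W : WeierstrassCurve k)

/-- the polynomial core.
PROOF: copy of `S52.CH.manin_poly`: `g := ∏ c, (X - C c)^(2 - eC c)`, `v1 := ∏ c, (X - C c)^(eC c)`,
`D² = g v1` (`manin_prod_X_sub_C`), `g ∣ Num` (`Finset.prod_dvd_of_coprime`, `count_tri`), `v0 := Num / g`,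
`IsCoprime v0 v1` (`count_tri`: if `eC c = 2`: `Num(c) ≠ 0`; if `eC c = 1` and `v0(c) = 0` then `(X - c)² ∣ Num`, so
`Num'(c) = 0` by `manin_deriv_sq`), degrees from `natDegree_Nump`. -/
theorem count_poly (hΔ : W.Δ ≠ 0) :
    ∃ g v0 v1 : k[X], g ≠ 0 ∧ v1 ≠ 0 ∧ Nump W (Fintype.card k) = g * v0 ∧
      (X ^ Fintype.card k - X) ^ 2 = g * v1 ∧ IsCoprime v0 v1 ∧
      v0.natDegree = 1 + ∑ c : k, eC W c ∧ v1.natDegree = ∑ c : k, eC W c := by
  classical
  have hdegnum := natDegree_Nump W
  set D : k[X] := X ^ Fintype.card k - X with hD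
  set num : k[X] := Nump W (Fintype.card k) with hnum
  set e1 : k → ℕ := fun c => eC W c with he1
  have htri := fun c : k => count_tri W hΔ c
  have hle : ∀ c, e1 c ≤ 2 := by
    intro c
    rcases htri c with h | h | h
    · exact h.1.le
    · exact h.1.le.trans (by norm_num)
    · exact h.1.le.trans (by norm_num)
  set g : k[X] := ∏ c : k, (X - C c) ^ (2 - e1 c) with hg
  set v1 : k[X] := ∏ c : k, (X - C c) ^ (e1 c) with hv1
  have hgm : g.Monic := monic_prod_of_monic _ _ fun c _ => (monic_X_sub_C c).pow _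
  have hv1m : v1.Monic := monic_prod_of_monic _ _ fun c _ => (monic_X_sub_C c).pow _
  have hgv1 : D ^ 2 = g * v1 := by
    rw [hg, hv1, ← Finset.prod_mul_distrib, hD, ← manin_prod_X_sub_C, ← Finset.prod_pow]
    refine Finset.prod_congr rfl fun c _ => ?_
    rw [← pow_add, Nat.sub_add_cancel (hle c)]
  have hdvd : g ∣ num := by
    refine Finset.prod_dvd_of_coprime ?_ ?_
    · intro c _ c' _ hcc'
      exact (pairwise_coprime_X_sub_C (Function.injective_id) hcc').pow
    · intro c _
      rcases htri c with h | h | h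
      · have h1 : e1 c = 2 := h.1
        rw [h1]
        simp
      · have h1 : e1 c = 1 := h.1
        rw [h1]
        simp only [Nat.add_one_sub_one, pow_one]
        exact dvd_iff_isRoot.mpr h.2.1
      · have h1 : e1 c = 0 := h.1
        rw [h1]
        exact h.2
  obtain ⟨v0, hv0⟩ := hdvd
  have hnum0 : num ≠ 0 := by
    intro h
    rw [h, natDegree_zero] at hdegnum
    omega
  have hv00 : v0 ≠ 0 := by
    rintro rfl
    exact hnum0 (by rw [hv0, mul_zero])
  have hcop : IsCoprime v0 v1 := by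
    refine IsCoprime.prod_right fun c _ => ?_
    rcases htri c with h | h | h
    · refine IsCoprime.pow_right (manin_isCoprime_X_sub_C _ _ fun hv => ?_)
      exact h.2 (by rw [← hnum, hv0, eval_mul, hv, mul_zero])
    · refine IsCoprime.pow_right (manin_isCoprime_X_sub_C _ _ fun hv => ?_)
      have h1 : e1 c = 1 := h.1
      have hgd : (X - C c) ∣ g := by
        have := Finset.dvd_prod_of_mem (fun c : k => (X - C c) ^ (2 - e1 c)) (Finset.mem_univ c)
        simpa [h1] using this
      obtain ⟨g1, hg1⟩ := hgd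
      obtain ⟨w1, hw1⟩ := dvd_iff_isRoot.mpr hv
      have hsq : num = (X - C c) ^ 2 * (g1 * w1) := by rw [hv0, hg1, hw1]; ring
      have hd0 : (derivative num).eval c = 0 := by rw [hsq]; exact manin_deriv_sq _ _
      exact h.2.2 hd0
    · have h1 : e1 c = 0 := h.1
      rw [h1, pow_zero]
      exact isCoprime_one_right
  have hdv1 : v1.natDegree = ∑ c : k, e1 c := by
    rw [hv1, natDegree_prod_of_monic _ _ fun c _ => (monic_X_sub_C c).pow _]
    refine Finset.sum_congr rfl fun c _ => ?_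
    rw [natDegree_pow, natDegree_X_sub_C, mul_one]
  have hdD : (D ^ 2).natDegree = 2 * Fintype.card k := by
    rw [natDegree_pow, hD, FiniteField.X_pow_card_sub_X_natDegree_eq _ Fintype.one_lt_card]
  have hd1 : g.natDegree + v1.natDegree = 2 * Fintype.card k := by
    rw [← hdD, hgv1, natDegree_mul hgm.ne_zero hv1m.ne_zero]
  have hd2 : g.natDegree + v0.natDegree = 2 * Fintype.card k + 1 := by
    rw [← hdegnum, hv0, natDegree_mul hgm.ne_zero hv00]
  refine ⟨g, v0, v1, hgm.ne_zero, hv1m.ne_zero, hv0, hgv1, hcop, ?_, hdv1⟩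
  rw [← hdv1]
  omega

/-- **Manin's lemma for a general Weierstrass equation**.
PROOF: as the end of `S52.CH.manin`: `rFr = v0 / v1`, `Ht` witness `![v0, v1]`, `c := (ι v1)⁻¹`; `card_point`. -/
theorem count (hΔ : W.Δ ≠ 0) : Ht ![rFr W (Fintype.card k), 1] (Nat.card W.toAffine.Point) := by
  obtain ⟨g, v0, v1, hg, hv1, hnum, hden, hcop, hd0, hd1⟩ := count_poly W hΔ
  rw [card_point W hΔ, ← hd0]
  have hgne : algebraMap k[X] (RatFunc k) g ≠ 0 := RatFunc.algebraMap_ne_zero hg
  have hv1ne : algebraMap k[X] (RatFunc k) v1 ≠ 0 := RatFunc.algebraMap_ne_zero hv1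
  refine ⟨![v0, v1], ?_, ?_, (algebraMap k[X] (RatFunc k) v1)⁻¹, inv_ne_zero hv1ne, ?_⟩
  · obtain ⟨a, b, hab⟩ := hcop
    rw [Prim, Ideal.eq_top_iff_one, ← hab]
    exact Ideal.add_mem _ (Ideal.mul_mem_left _ _ (Ideal.subset_span ⟨0, rfl⟩))
      (Ideal.mul_mem_left _ _ (Ideal.subset_span ⟨1, rfl⟩))
  · refine ⟨fun i => ?_, 0, ?_⟩
    · fin_cases i
      · exact le_rfl
      · show v1.natDegree ≤ v0.natDegree
        omega
    · show v0.coeff v0.natDegree ≠ 0
      rw [coeff_natDegree, leadingCoeff_ne_zero]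
      rintro rfl
      rw [natDegree_zero] at hd0
      omega
  · rw [Fin.forall_fin_two]
    refine ⟨?_, ?_⟩
    · simp only [Matrix.cons_val_zero]
      unfold rFr
      rw [hnum, hden, map_mul, map_mul]
      field_simp
    · simp only [Matrix.cons_val_one, Matrix.cons_val_zero]
      rw [inv_mul_cancel₀ hv1ne]

end Fermat.Agent.S58.CH
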