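import Fermat.Agent.S58.CH.Count1
import Fermat.Agent.S58.CH.Count.Main

/-!
# S58 / CH : bridge between the two versions of the count
`Count.count` (fibre of `Frob - 1` over a generic point) gives `Ht ![rFr W q, 1] (# W(k))`.
-/

set_option autoImplicit false

namespace Fermat.Agent.S58.CH

open Polynomial Fermat.Agent.S52.CH

variable {k : Type*} [Field k] (W : WeierstrassCurve k)

lemma CountAlt_fP : Count.fP W = fp W := by
  simp only [Count.fP, fp]

lemma CountAlt_gP : Count.gP W = Lp W := by
  simp only [Count.gP, Lp]

lemma CountAlt_trP (n : ℕ) : Count.trP W n = 2 * An W n - Lp W * Bn W n := by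
  induction n using Nat.twoStepInduction with
  | zero => simp [Count.trP]
  | one => simp [Count.trP, An_succ, Bn_succ, CountAlt_gP]
  | more n ih0 ih1 =>
    rw [Count.trP, ih0, ih1, CountAlt_gP, CountAlt_fP]
    simp only [An_succ, Bn_succ]
    ring

lemma CountAlt_numP [Fintype k] : Count.numP W = Nump W (Fintype.card k) := by
  rw [Count.numP, Nump, Gp_eq, CountAlt_trP, CountAlt_fP]

/-- the count, via the fibre route. -/
theorem count_alt [Fintype k] (hΔ : W.Δ ≠ 0) :
    Ht ![rFr W (Fintype.card k), 1] (Nat.card W.toAffine.Point) := by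
  have h := Count.count W hΔ
  rw [CountAlt_numP] at h
  rw [rFr]
  simpa only [map_pow, map_sub, RatFunc.algebraMap_X] using h

end Fermat.Agent.S58.CH
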