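import Fermat.Agent.S58.CH.FieldK

/-!
# S58 / CH-COUNT : definitions for `deg x(Frob η - η) = #C(F_q)` (general Weierstrass equation)

All objects are POLYNOMIALS in `k[X]`:  `y^n = A_n + B_n y` whenever `y² + L y = f`.
`s = y^q + y + L = S_A + S_B y`,  `G = s (s + a₁ D) = - N(s) = -(S_A² - S_A S_B L - S_B² f)`,  `D = X^q - X`,
`x(Frob η - η) = Num / D²`,  `Num = G - (a₂ + X^q + X) D²`.
-/

set_option autoImplicit false

namespace Fermat.Agent.S58.CH

open Polynomial

variable {k : Type*} [Field k] (W : WeierstrassCurve k)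

/-- `y ^ n = A_n + B_n y`. -/
noncomputable def AB : ℕ → k[X] × k[X]
  | 0 => (1, 0)
  | n + 1 => (fp W * (AB n).2, (AB n).1 - Lp W * (AB n).2)

/-- `A_n`. -/
noncomputable def An (n : ℕ) : k[X] := (AB W n).1

/-- `B_n`. -/
noncomputable def Bn (n : ℕ) : k[X] := (AB W n).2

@[simp] lemma An_zero : An W 0 = 1 := rfl
@[simp] lemma Bn_zero : Bn W 0 = 0 := rfl
lemma An_succ (n : ℕ) : An W (n + 1) = fp W * Bn W n := rfl
lemma Bn_succ (n : ℕ) : Bn W (n + 1) = An W n - Lp W * Bn W n := rfl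

/-- `y ^ n = A_n + B_n y` in every ring with a point of the curve. -/
lemma pow_eq_AB {R : Type*} [CommRing R] (φ : k[X] →+* R) (y : R)
    (hy : y ^ 2 + φ (Lp W) * y = φ (fp W)) (n : ℕ) : y ^ n = φ (An W n) + φ (Bn W n) * y := by
  induction n with
  | zero => simp
  | succ n ih =>
    rw [pow_succ, ih, An_succ, Bn_succ, map_mul, map_sub, map_mul, ← hy]
    ring

/-- `S_A = A_q + L`. -/
noncomputable def SA (q : ℕ) : k[X] := An W q + Lp W

/-- `S_B = B_q + 1`. -/
noncomputable def SB (q : ℕ) : k[X] := Bn W q + 1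

/-- `G = -N(s)`. -/
noncomputable def Gp (q : ℕ) : k[X] :=
  -(SA W q ^ 2 - SA W q * SB W q * Lp W - SB W q ^ 2 * fp W)

/-- the numerator of `x(Frob η - η)` over the denominator `(X^q - X)²`. -/
noncomputable def Nump (q : ℕ) : k[X] := Gp W q - (C W.a₂ + X ^ q + X) * (X ^ q - X) ^ 2

/-- `x(Frob η - η)` as a rational function. -/
noncomputable def rFr (q : ℕ) : RatFunc k :=
  algebraMap k[X] (RatFunc k) (Nump W q) / algebraMap k[X] (RatFunc k) ((X ^ q - X) ^ 2)

end Fermat.Agent.S58.CH
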