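import Fermat.Agent.S52.CH.Defs

/-!
# S58 / CH : the function field `K = k(X)(y₀)`, `y₀² + (a₁ X + a₃) y₀ = X³ + a₂ X² + a₄ X + a₆`

Port of `S52/CH/FieldK` to an arbitrary Weierstrass equation (all characteristics).
-/

set_option autoImplicit false

namespace Fermat.Agent.S58.CH

open Polynomial

variable {k : Type*} [Field k] (W : WeierstrassCurve k)

/-- `L = a₁ X + a₃`. -/
noncomputable def Lp : k[X] := C W.a₁ * X + C W.a₃

/-- `f = X³ + a₂ X² + a₄ X + a₆`. -/
noncomputable def fp : k[X] := X ^ 3 + C W.a₂ * X ^ 2 + C W.a₄ * X + C W.a₆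

lemma natDegree_Lp_le : (Lp W).natDegree ≤ 1 := by
  unfold Lp; compute_degree

lemma natDegree_fp : (fp W).natDegree = 3 := by
  unfold fp; compute_degree!

lemma eval_Lp (c : k) : (Lp W).eval c = W.a₁ * c + W.a₃ := by simp [Lp]

lemma eval_fp (c : k) : (fp W).eval c = c ^ 3 + W.a₂ * c ^ 2 + W.a₄ * c + W.a₆ := by simp [fp]

/-- no polynomial solution of `ρ² + P ρ = Q`, `deg P ≤ 1`, `deg Q = 3`. -/
lemma no_poly_root (P Q ρ : k[X]) (hP : P.natDegree ≤ 1) (hQ : Q.natDegree = 3) :
    ρ ^ 2 + P * ρ ≠ Q := by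
  intro h
  rcases Nat.lt_or_ge ρ.natDegree 2 with hd | hd
  · have h1 : (ρ ^ 2 + P * ρ).natDegree ≤ 2 := by
      refine (natDegree_add_le _ _).trans (max_le ?_ ?_)
      · exact (natDegree_pow_le).trans (by omega)
      · exact (natDegree_mul_le).trans (by omega)
    rw [h, hQ] at h1
    omega
  · have h2 : (ρ ^ 2).natDegree = 2 * ρ.natDegree := natDegree_pow _ _
    have h3 : (P * ρ).natDegree < (ρ ^ 2).natDegree := by
      rw [h2]
      exact lt_of_le_of_lt natDegree_mul_le (by omega)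
    have h4 := natDegree_add_eq_left_of_natDegree_lt h3
    rw [h, hQ, h2] at h4
    omega

/-- no solution in `k(X)` either (integrally closed). -/
lemma no_ratFunc_root (P Q : k[X]) (r : RatFunc k) (hP : P.natDegree ≤ 1) (hQ : Q.natDegree = 3) :
    r ^ 2 + algebraMap k[X] (RatFunc k) P * r ≠ algebraMap k[X] (RatFunc k) Q := by
  intro h
  have hint : IsIntegral k[X] r := by
    refine ⟨X ^ 2 + C P * X - C Q, by monicity!, ?_⟩
    simp only [eval₂_sub, eval₂_add, eval₂_mul, eval₂_pow, eval₂_X, eval₂_C]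
    rw [h, sub_self]
  obtain ⟨ρ, rfl⟩ := (IsIntegrallyClosed.isIntegral_iff (R := k[X]) (K := RatFunc k)).1 hint
  apply no_poly_root P Q ρ hP hQ
  apply IsFractionRing.injective k[X] (RatFunc k)
  rw [map_add, map_mul, map_pow, h]

/-- the defining polynomial of `K` -/
noncomputable def defPoly : (RatFunc k)[X] :=
  X ^ 2 + C (algebraMap k[X] (RatFunc k) (Lp W)) * X - C (algebraMap k[X] (RatFunc k) (fp W))

lemma monic_defPoly : (defPoly W).Monic := by
  unfold defPoly; monicity!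

lemma natDegree_defPoly : (defPoly W).natDegree = 2 := by
  unfold defPoly; compute_degree!

theorem irreducible_defPoly : Irreducible (defPoly W) := by
  rw [(monic_defPoly W).irreducible_iff_roots_eq_zero_of_degree_le_three
    (by rw [natDegree_defPoly]) (by rw [natDegree_defPoly]; norm_num)]
  rw [Multiset.eq_zero_iff_forall_notMem]
  intro r hr
  rw [mem_roots (monic_defPoly W).ne_zero, IsRoot, defPoly] at hr
  simp only [eval_sub, eval_add, eval_mul, eval_pow, eval_X, eval_C] at hr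
  exact no_ratFunc_root (Lp W) (fp W) r (natDegree_Lp_le W) (natDegree_fp W) (sub_eq_zero.mp hr)

instance : Fact (Irreducible (defPoly W)) := ⟨irreducible_defPoly W⟩

/-- the function field of `W` -/
abbrev KE := AdjoinRoot (defPoly W)

/-- `k[X] → K` -/
noncomputable def jK : k[X] →+* KE W :=
  (algebraMap (RatFunc k) (KE W)).comp (algebraMap k[X] (RatFunc k))

/-- `y₀` -/
noncomputable def y0 : KE W := AdjoinRoot.root (defPoly W)

/-- `X` in `K` -/
noncomputable def xK : KE W := algebraMap (RatFunc k) (KE W) RatFunc.X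

lemma algebraMap_injective : Function.Injective (algebraMap (RatFunc k) (KE W)) :=
  (algebraMap (RatFunc k) (KE W)).injective

lemma jK_injective : Function.Injective (jK W) :=
  (algebraMap_injective W).comp (IsFractionRing.injective k[X] (RatFunc k))

lemma jK_apply (p : k[X]) :
    jK W p = algebraMap (RatFunc k) (KE W) (algebraMap k[X] (RatFunc k) p) := rfl

lemma jK_X : jK W X = xK W := by
  rw [jK_apply, RatFunc.algebraMap_X, xK]

lemma jK_C (c : k) : jK W (C c) = algebraMap k (KE W) c := by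
  rw [jK_apply, RatFunc.algebraMap_C, IsScalarTower.algebraMap_apply k (RatFunc k) (KE W),
    RatFunc.algebraMap_eq_C]

lemma y0_sq : y0 W ^ 2 + jK W (Lp W) * y0 W = jK W (fp W) := by
  have h := AdjoinRoot.eval₂_root (defPoly W)
  have h' : ∀ g : (RatFunc k)[X],
      g = X ^ 2 + C (algebraMap k[X] (RatFunc k) (Lp W)) * X
        - C (algebraMap k[X] (RatFunc k) (fp W)) →
      eval₂ (AdjoinRoot.of (defPoly W)) (AdjoinRoot.root (defPoly W)) g
      = AdjoinRoot.root (defPoly W) ^ 2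
        + AdjoinRoot.of (defPoly W) (algebraMap k[X] (RatFunc k) (Lp W))
          * AdjoinRoot.root (defPoly W)
        - AdjoinRoot.of (defPoly W) (algebraMap k[X] (RatFunc k) (fp W)) := by
    intro g hg
    rw [hg]
    simp only [eval₂_sub, eval₂_add, eval₂_mul, eval₂_pow, eval₂_X, eval₂_C]
  rw [h' (defPoly W) rfl] at h
  exact sub_eq_zero.mp h

lemma jK_Lp : jK W (Lp W) = algebraMap k (KE W) W.a₁ * xK W + algebraMap k (KE W) W.a₃ := by
  simp only [Lp, map_add, map_mul, jK_X, jK_C]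

lemma jK_fp : jK W (fp W) = xK W ^ 3 + algebraMap k (KE W) W.a₂ * xK W ^ 2
    + algebraMap k (KE W) W.a₄ * xK W + algebraMap k (KE W) W.a₆ := by
  simp only [fp, map_add, map_mul, map_pow, jK_X, jK_C]

/-- the Weierstrass equation of the generic point. -/
lemma y0_sq' : y0 W ^ 2 + algebraMap k (KE W) W.a₁ * xK W * y0 W + algebraMap k (KE W) W.a₃ * y0 W
    = xK W ^ 3 + algebraMap k (KE W) W.a₂ * xK W ^ 2 + algebraMap k (KE W) W.a₄ * xK W
      + algebraMap k (KE W) W.a₆ := by
  rw [← jK_fp, ← y0_sq, jK_Lp]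
  ring

/-- every element is `u + v y₀` -/
lemma exists_rep (z : KE W) : ∃ u v : RatFunc k,
    z = algebraMap _ _ u + algebraMap _ _ v * y0 W := by
  obtain ⟨p, rfl⟩ := AdjoinRoot.mk_surjective z
  have hdeg : (p %ₘ defPoly W).natDegree < 2 := by
    have := natDegree_modByMonic_lt p (monic_defPoly W) (by
      intro h
      have := natDegree_defPoly W
      rw [h] at this
      simp at this)
    rwa [natDegree_defPoly] at this
  have hp : AdjoinRoot.mk (defPoly W) p = AdjoinRoot.mk (defPoly W) (p %ₘ defPoly W) := by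
    rw [AdjoinRoot.mk_eq_mk, modByMonic_eq_sub_mul_div, sub_sub_cancel]
    exact dvd_mul_right _ _
  refine ⟨(p %ₘ defPoly W).coeff 0, (p %ₘ defPoly W).coeff 1, ?_⟩
  rw [hp]
  conv_lhs => rw [as_sum_range' (p %ₘ defPoly W) 2 hdeg]
  simp only [Finset.sum_range_succ, Finset.sum_range_zero, zero_add, map_add]
  rw [← C_mul_X_pow_eq_monomial, ← C_mul_X_pow_eq_monomial]
  simp only [pow_zero, mul_one, pow_one, map_mul, AdjoinRoot.mk_C, AdjoinRoot.mk_X]
  rfl

/-- `1, y₀` are independent over `k(X)`. -/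
lemma rep_eq_zero {u v : RatFunc k}
    (h : algebraMap (RatFunc k) (KE W) u + algebraMap (RatFunc k) (KE W) v * y0 W = 0) :
    u = 0 ∧ v = 0 := by
  have hv : v = 0 := by
    by_contra hv
    have hv' : algebraMap (RatFunc k) (KE W) v ≠ 0 := fun h0 =>
      hv (algebraMap_injective W (by rw [h0, map_zero]))
    have hy : y0 W = algebraMap (RatFunc k) (KE W) (-u / v) := by
      rw [map_div₀, map_neg, eq_div_iff hv']
      linear_combination h
    have h1 := y0_sq W
    rw [hy, jK_apply, jK_apply, ← map_pow, ← map_mul, ← map_add] at h1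
    exact no_ratFunc_root (Lp W) (fp W) _ (natDegree_Lp_le W) (natDegree_fp W)
      (algebraMap_injective W h1)
  subst hv
  refine ⟨algebraMap_injective W ?_, rfl⟩
  rw [map_zero]
  simpa using h

/-- the nontrivial automorphism `y₀ ↦ -y₀ - a₁ X - a₃` -/
noncomputable def sig : KE W →ₐ[RatFunc k] KE W :=
  AdjoinRoot.liftAlgHom (defPoly W) (Algebra.ofId _ _) (- y0 W - jK W (Lp W)) (by
    simp only [defPoly, eval₂_sub, eval₂_add, eval₂_mul, eval₂_pow, eval₂_X, eval₂_C]
    have h := y0_sq W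
    have e1 : ((Algebra.ofId (RatFunc k) (KE W) : RatFunc k →ₐ[RatFunc k] KE W) : RatFunc k →+* KE W)
        (algebraMap k[X] (RatFunc k) (Lp W)) = jK W (Lp W) := rfl
    have e2 : ((Algebra.ofId (RatFunc k) (KE W) : RatFunc k →ₐ[RatFunc k] KE W) : RatFunc k →+* KE W)
        (algebraMap k[X] (RatFunc k) (fp W)) = jK W (fp W) := rfl
    rw [e1, e2]
    linear_combination h)

lemma sig_y0 : sig W (y0 W) = - y0 W - jK W (Lp W) := by
  exact AdjoinRoot.liftAlgHom_root _ _ _ _

lemma sig_jK (p : k[X]) : sig W (jK W p) = jK W p := (sig W).commutes _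

/-- `ψ₂² = 4 X³ + b₂ X² + 2 b₄ X + b₆`. -/
noncomputable def psi : k[X] := C 4 * X ^ 3 + C W.b₂ * X ^ 2 + C (2 * W.b₄) * X + C W.b₆

lemma psi_eq : psi W = Lp W ^ 2 + 4 * fp W := by
  simp only [psi, Lp, fp, WeierstrassCurve.b₂, WeierstrassCurve.b₄, WeierstrassCurve.b₆, map_add,
    map_mul, map_pow, map_ofNat]
  ring

lemma psi_ne_zero (hΔ : W.Δ ≠ 0) : psi W ≠ 0 := by
  intro h
  apply hΔ
  have h3 : (psi W).coeff 3 = 0 := by rw [h, coeff_zero]
  have h2 : (psi W).coeff 2 = 0 := by rw [h, coeff_zero]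
  have h1 : (psi W).coeff 1 = 0 := by rw [h, coeff_zero]
  have h0 : (psi W).coeff 0 = 0 := by rw [h, coeff_zero]
  simp [psi, coeff_X, coeff_C] at h3 h2 h1 h0
  have h8 : (8 : k) = 0 := by linear_combination 2 * h3
  rw [WeierstrassCurve.Δ, h2, h0]
  linear_combination (-W.b₄ ^ 3) * h8

lemma two_y0_add_sq : (2 * y0 W + jK W (Lp W)) ^ 2 = jK W (psi W) := by
  rw [psi_eq, map_add, map_mul, map_pow, ← y0_sq, map_ofNat]
  ring

lemma two_y0_add_ne_zero (hΔ : W.Δ ≠ 0) : 2 * y0 W + jK W (Lp W) ≠ 0 := by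
  intro h
  have h1 := two_y0_add_sq W
  rw [h] at h1
  apply psi_ne_zero W hΔ
  apply jK_injective W
  rw [← h1, map_zero]
  ring

lemma sig_fixed (hΔ : W.Δ ≠ 0) {z : KE W} (hz : sig W z = z) :
    ∃ r : RatFunc k, z = algebraMap _ _ r := by
  obtain ⟨u, v, rfl⟩ := exists_rep W z
  rw [map_add, map_mul, AlgHom.commutes, AlgHom.commutes, sig_y0] at hz
  have : algebraMap (RatFunc k) (KE W) v * (2 * y0 W + jK W (Lp W)) = 0 := by
    linear_combination -hz
  have hv : algebraMap (RatFunc k) (KE W) v = 0 :=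
    (mul_eq_zero.mp this).resolve_right (two_y0_add_ne_zero W hΔ)
  exact ⟨u, by rw [hv]; ring⟩

section lift

variable {W} {Ω : Type*} [Field Ω] [Algebra k Ω]

/-- `k(X) → Ω`, `X ↦ x'`. -/
noncomputable def liftR (x' : Ω) (htr : Transcendental k x') : RatFunc k →ₐ[k] Ω :=
  RatFunc.liftAlgHom (aeval x' : k[X] →ₐ[k] Ω)
    (nonZeroDivisors_le_comap_nonZeroDivisors_of_injective _
      (transcendental_iff_injective.mp htr))

lemma liftR_algebraMap (x' : Ω) (htr : Transcendental k x') (p : k[X]) :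
    liftR x' htr (algebraMap k[X] (RatFunc k) p) = aeval x' p := by
  have := RatFunc.liftAlgHom_apply_div (aeval x' : k[X] →ₐ[k] Ω)
    (nonZeroDivisors_le_comap_nonZeroDivisors_of_injective _
      (transcendental_iff_injective.mp htr)) p 1
  simpa [liftR] using this

lemma liftR_X (x' : Ω) (htr : Transcendental k x') : liftR x' htr RatFunc.X = x' := by
  rw [← RatFunc.algebraMap_X, liftR_algebraMap, aeval_X]

/-- `K → Ω`, `X ↦ x'`, `y₀ ↦ y'`. -/
noncomputable def liftK (x' y' : Ω) (htr : Transcendental k x')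
    (h : y' ^ 2 + algebraMap k Ω W.a₁ * x' * y' + algebraMap k Ω W.a₃ * y'
      = x' ^ 3 + algebraMap k Ω W.a₂ * x' ^ 2 + algebraMap k Ω W.a₄ * x' + algebraMap k Ω W.a₆) :
    KE W →ₐ[k] Ω :=
  AdjoinRoot.liftAlgHom (defPoly W) (liftR x' htr) y' (by
    simp only [defPoly, eval₂_sub, eval₂_add, eval₂_mul, eval₂_pow, eval₂_X, eval₂_C]
    have e1 : ((liftR x' htr : RatFunc k →ₐ[k] Ω) : RatFunc k →+* Ω)
        (algebraMap k[X] (RatFunc k) (Lp W)) = algebraMap k Ω W.a₁ * x' + algebraMap k Ω W.a₃ := by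
      change liftR x' htr _ = _
      rw [liftR_algebraMap]
      simp [Lp]
    have e2 : ((liftR x' htr : RatFunc k →ₐ[k] Ω) : RatFunc k →+* Ω)
        (algebraMap k[X] (RatFunc k) (fp W)) = x' ^ 3 + algebraMap k Ω W.a₂ * x' ^ 2
          + algebraMap k Ω W.a₄ * x' + algebraMap k Ω W.a₆ := by
      change liftR x' htr _ = _
      rw [liftR_algebraMap]
      simp [fp]
    rw [e1, e2]
    linear_combination h)

variable (x' y' : Ω) (htr : Transcendental k x')
    (h : y' ^ 2 + algebraMap k Ω W.a₁ * x' * y' + algebraMap k Ω W.a₃ * y'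
      = x' ^ 3 + algebraMap k Ω W.a₂ * x' ^ 2 + algebraMap k Ω W.a₄ * x' + algebraMap k Ω W.a₆)

lemma liftK_algebraMap (r : RatFunc k) :
    liftK x' y' htr h (algebraMap _ _ r) = liftR x' htr r :=
  AdjoinRoot.liftAlgHom_of _ _ _ _ r

lemma liftK_xK : liftK x' y' htr h (xK W) = x' := by
  rw [xK, liftK_algebraMap, liftR_X]

lemma liftK_y0 : liftK x' y' htr h (y0 W) = y' :=
  AdjoinRoot.liftAlgHom_root _ _ _ _

end lift

end Fermat.Agent.S58.CH
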