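import Fermat.Agent.S58.CH.Odd
import Fermat.Agent.S58.CH.Count5

/-!
# S58 / CH : Frobenius on odd points  (general Weierstrass equation)
-/

set_option autoImplicit false

namespace Fermat.Agent.S58.CH

open WeierstrassCurve WeierstrassCurve.Affine Polynomial Fermat.Agent.S52.CH

variable {k : Type*} [Field k] [Fintype k] (W : WeierstrassCurve.Affine k)

/-- Frobenius on `L`-points -/
noncomputable def Fr (L : Type*) [Field L] [DecidableEq L] [Algebra k L] :
    (W⁄L).Point →+ (W⁄L).Point :=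
  Point.map (W' := W) (FiniteField.frobeniusAlgHom k L)

variable {W}

lemma map_Fr {L L' : Type*} [Field L] [DecidableEq L] [Algebra k L] [Field L'] [DecidableEq L']
    [Algebra k L'] (ψ : L →ₐ[k] L') (P : (W⁄L).Point) :
    Point.map (W' := W) ψ (Fr W L P) = Fr W L' (Point.map (W' := W) ψ P) := by
  have e : ψ.comp (FiniteField.frobeniusAlgHom k L) = (FiniteField.frobeniusAlgHom k L').comp ψ := by
    ext x
    change ψ (x ^ Fintype.card k) = (ψ x) ^ Fintype.card k
    rw [map_pow]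
  simp only [Fr, Point.map_map, e]

lemma Fr_mem_M {P : PK W} (hP : P ∈ M W) : Fr W (KE W) P ∈ M W := by
  rw [mem_M] at hP ⊢
  rw [Sg, map_Fr, ← Sg, hP, map_neg]

lemma HasD_Fr {P : PK W} {N : ℕ} (h : HasD W P N) :
    HasD W (Fr W (KE W) P) (Fintype.card k * N) := by
  obtain ⟨ξ, hξ, hN⟩ := h
  refine ⟨![ξ 0 ^ Fintype.card k, ξ 1 ^ Fintype.card k], fun i => ?_, Ht_pow ?_ _⟩
  · rw [Fr, xRep_map, hξ i, FiniteField.coe_frobeniusAlgHom]
    fin_cases i <;> simp
  · have : ξ = ![ξ 0, ξ 1] := by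
      funext i; fin_cases i <;> rfl
    rwa [← this]

variable (W)

omit [Fintype k] in
lemma nonsingular_eta (hΔ : W.Δ ≠ 0) : (W⁄(KE W)).Nonsingular (xK W) (y0 W) := by
  have hΔ' : (W⁄(KE W)).Δ ≠ 0 := by
    change (W.map (algebraMap k (KE W))).Δ ≠ 0
    rw [WeierstrassCurve.map_Δ]
    exact fun h => hΔ ((algebraMap k (KE W)).injective (by rw [h, map_zero]))
  rw [← equation_iff_nonsingular_of_Δ_ne_zero hΔ', equation_iff]
  exact y0_sq' W

/-- the generic point -/
noncomputable def eta (hΔ : W.Δ ≠ 0) : PK W :=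
  Point.some _ _ (nonsingular_eta W hΔ)

variable {W}

omit [Fintype k] in
lemma eta_mem_M (hΔ : W.Δ ≠ 0) : eta W hΔ ∈ M W := by
  rw [mem_M, eta, Sg, Point.map_some, Point.neg_some, Point.some.injEq]
  constructor
  · exact (sig W).commutes _
  · change sig W (y0 W) = _
    rw [sig_y0, jK_Lp]
    simp only [negY]
    change _ = -y0 W - algebraMap k (KE W) W.a₁ * xK W - algebraMap k (KE W) W.a₃
    ring

omit [Fintype k] in
lemma HasD_eta (hΔ : W.Δ ≠ 0) : HasD W (eta W hΔ) 1 :=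
  HasD_some.mpr Ht_X

lemma xK_pow_ne : xK W ^ Fintype.card k ≠ xK W := by
  intro h
  have h1 : (RatFunc.X : RatFunc k) ^ Fintype.card k = RatFunc.X := by
    apply algebraMap_injective W
    rw [map_pow]
    exact h
  have h3 := congrArg RatFunc.intDegree h1
  rw [← RatFunc.algebraMap_X, ← map_pow, RatFunc.intDegree_polynomial,
    RatFunc.intDegree_polynomial, natDegree_X_pow, natDegree_X] at h3
  have := Fintype.one_lt_card (α := k)
  omega

/-- `s = y₀^q + y₀ + L = S_A + S_B y₀`.  (`pow_eq_AB W (jK W) (y0 W) (y0_sq W)`) -/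
lemma s_eq : y0 W ^ Fintype.card k + y0 W + jK W (Lp W)
    = jK W (SA W (Fintype.card k)) + jK W (SB W (Fintype.card k)) * y0 W := by
  rw [pow_eq_AB W (jK W) (y0 W) (y0_sq W), SA, SB, map_add, map_add, map_one]
  ring

/-- `L^q = L + a₁ (X^q - X)` in `K`. -/
lemma Lp_pow_card : jK W (Lp W) ^ Fintype.card k
    = jK W (Lp W) + algebraMap k (KE W) W.a₁ * (xK W ^ Fintype.card k - xK W) := by
  have h : (FiniteField.frobeniusAlgHom k (KE W)) (jK W (Lp W))
      = algebraMap k (KE W) W.a₁ * xK W ^ Fintype.card k + algebraMap k (KE W) W.a₃ := by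
    rw [jK_Lp, map_add, map_mul, AlgHom.commutes, AlgHom.commutes]
    rfl
  have h' : (FiniteField.frobeniusAlgHom k (KE W)) (jK W (Lp W))
      = jK W (Lp W) ^ Fintype.card k := rfl
  rw [← h', h, jK_Lp]
  ring

/-- `s + a₁ D = -σ(s) = -(S_A + S_B σ(y₀))`. -/
lemma s_add_eq : y0 W ^ Fintype.card k + y0 W + jK W (Lp W)
      + algebraMap k (KE W) W.a₁ * (xK W ^ Fintype.card k - xK W)
    = -(jK W (SA W (Fintype.card k))
        + jK W (SB W (Fintype.card k)) * (-y0 W - jK W (Lp W))) := by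
  have h1 := congrArg (sig W) (s_eq (W := W))
  rw [map_add, map_add, map_pow, map_add, map_mul, sig_jK, sig_jK, sig_jK, sig_y0] at h1
  rw [← h1]
  have h2 : (-y0 W - jK W (Lp W)) ^ Fintype.card k
      = -y0 W ^ Fintype.card k - jK W (Lp W) ^ Fintype.card k := by
    have e : ∀ z : KE W, (FiniteField.frobeniusAlgHom k (KE W)) z = z ^ Fintype.card k :=
      fun _ => rfl
    rw [← e, map_sub, map_neg, e, e]
  rw [h2, Lp_pow_card]
  ring

/-- `s (s + a₁ D) = G`. -/
lemma s_mul_eq : (y0 W ^ Fintype.card k + y0 W + jK W (Lp W))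
      * (y0 W ^ Fintype.card k + y0 W + jK W (Lp W)
        + algebraMap k (KE W) W.a₁ * (xK W ^ Fintype.card k - xK W))
    = jK W (Gp W (Fintype.card k)) := by
  rw [s_add_eq, s_eq, Gp]
  simp only [map_neg, map_sub, map_mul, map_pow]
  rw [← y0_sq W]
  ring

lemma HasD_Fr_eta_sub (hΔ : W.Δ ≠ 0) :
    HasD W (Fr W (KE W) (eta W hΔ) - eta W hΔ) (Nat.card W.toAffine.Point) := by
  rw [sub_eq_add_neg, eta, Fr, Point.map_some, Point.neg_some,
    Point.add_of_X_ne (by exact xK_pow_ne)]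
  refine (HasD_some' ?_).mpr (count W hΔ)
  rw [slope_of_X_ne (by exact xK_pow_ne)]
  have hy : (FiniteField.frobeniusAlgHom k (KE W)) (y0 W) = y0 W ^ Fintype.card k := rfl
  have hx : (FiniteField.frobeniusAlgHom k (KE W)) (xK W) = xK W ^ Fintype.card k := rfl
  have a1 : (W⁄(KE W)).a₁ = algebraMap k (KE W) W.a₁ := rfl
  have a2 : (W⁄(KE W)).a₂ = algebraMap k (KE W) W.a₂ := rfl
  have a3 : (W⁄(KE W)).a₃ = algebraMap k (KE W) W.a₃ := rfl
  have hD : xK W ^ Fintype.card k - xK W ≠ 0 := sub_ne_zero.2 xK_pow_ne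
  have hG := s_mul_eq (W := W)
  rw [jK_Lp] at hG
  rw [hy, hx, rFr, map_div₀, ← jK_apply, ← jK_apply, Nump]
  simp only [map_sub, map_mul, map_add, map_pow, jK_X, jK_C, addX, negY, a1, a2, a3]
  rw [← hG]
  field_simp
  ring

omit [Fintype k] in
lemma eq_of_equation {Ω : Type*} [Field Ω] [Algebra k Ω] {x y : Ω} (h : (W⁄Ω).Equation x y) :
    y ^ 2 + algebraMap k Ω W.a₁ * x * y + algebraMap k Ω W.a₃ * y
      = x ^ 3 + algebraMap k Ω W.a₂ * x ^ 2 + algebraMap k Ω W.a₄ * x + algebraMap k Ω W.a₆ :=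
  (equation_iff _ _).1 h

omit [Fintype k] in
lemma liftR_comp {ρ : RatFunc k} (htr : Transcendental k ρ)
    (htr' : Transcendental k (algebraMap (RatFunc k) (KE W) ρ)) (r : RatFunc k) :
    liftR (algebraMap (RatFunc k) (KE W) ρ) htr' r
      = algebraMap (RatFunc k) (KE W) (compHom ρ r) := by
  rw [compHom, dif_pos htr, liftR, RatFunc.liftAlgHom_apply, RatFunc.liftAlgHom_apply, map_div₀,
    aeval_algebraMap_apply, aeval_algebraMap_apply]

omit [Fintype k] in
lemma exists_subst (hΔ : W.Δ ≠ 0) {Q : PK W}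
    (hQ : Q ∈ M W) {m : ℕ} (hm : 0 < m) (hD : HasD W Q m) :
    ∃ ψ : KE W →ₐ[k] KE W, Point.map (W' := W) ψ (eta W hΔ) = Q ∧
      ∀ (P : PK W) (n : ℕ), HasD W P n →
        HasD W (Point.map (W' := W) ψ P) (n * m) := by
  rcases Q with _ | ⟨x, y, h⟩
  · exact absurd (hD.unique HasD_zero) hm.ne'
  obtain ⟨⟨ρ, rfl⟩, -⟩ := odd_coords hΔ hQ
  have hρ : Ht ![ρ, 1] m := HasD_some.mp hD
  have htr : Transcendental k ρ := transcendental_of_Ht hρ hm
  have htr' : Transcendental k (algebraMap (RatFunc k) (KE W) ρ) :=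
    (transcendental_algebraMap_iff (algebraMap_injective W)).mpr htr
  have heq := eq_of_equation h.1
  refine ⟨liftK _ y htr' heq, ?_, ?_⟩
  · rw [eta, Point.map_some, Point.some.injEq]
    exact ⟨liftK_xK _ _ _ _, liftK_y0 _ _ _ _⟩
  · intro P n hP
    rcases P with _ | ⟨x', y', h'⟩
    · have : n = 0 := hP.unique HasD_zero
      subst this
      rw [zero_mul]
      exact HasD_zero
    · obtain ⟨ξ, hξ, hN⟩ := hP
      have hx' : x' = algebraMap (RatFunc k) (KE W) (ξ 0) := by simpa using hξ 0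
      have hr : Ht ![ξ 0, 1] n := (HasD_some' hx').mp ⟨ξ, hξ, hN⟩
      rw [Point.map_some]
      refine (HasD_some' ?_).mpr (Ht_comp hr hρ hm)
      rw [hx', liftK_algebraMap, liftR_comp htr]

end Fermat.Agent.S58.CH
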