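import Fermat.Agent.S58.CH.FieldK

/-!
# S58 / CH : a "constant" odd element of `K` lies in `k(X)`
-/

set_option autoImplicit false

namespace Fermat.Agent.S58.CH

open Polynomial

variable {k : Type*} [Field k] (W : WeierstrassCurve k)

/-- the two relations (T), (N) for `y = u + v y₀`. -/
lemma Tors_relations (ℓ e : k) (u v : RatFunc k)
    (hy : (algebraMap (RatFunc k) (KE W) u + algebraMap (RatFunc k) (KE W) v * y0 W) ^ 2
      + algebraMap k (KE W) ℓ * (algebraMap (RatFunc k) (KE W) u
        + algebraMap (RatFunc k) (KE W) v * y0 W) = algebraMap k (KE W) e)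
    (hs : sig W (algebraMap (RatFunc k) (KE W) u + algebraMap (RatFunc k) (KE W) v * y0 W)
      = -(algebraMap (RatFunc k) (KE W) u + algebraMap (RatFunc k) (KE W) v * y0 W)
        - algebraMap k (KE W) ℓ) :
    2 * u - v * algebraMap k[X] (RatFunc k) (Lp W) + algebraMap k[X] (RatFunc k) (C ℓ) = 0 ∧
    u ^ 2 + v ^ 2 * algebraMap k[X] (RatFunc k) (fp W) + algebraMap k[X] (RatFunc k) (C ℓ) * u
      - algebraMap k[X] (RatFunc k) (C e) = 0 := by
  rw [← jK_C, jK_apply] at hy hs
  rw [← jK_C, jK_apply] at hy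
  constructor
  · rw [map_add, map_mul, AlgHom.commutes, AlgHom.commutes, sig_y0, jK_apply] at hs
    refine (rep_eq_zero W (v := 0) ?_).1
    simp only [map_add, map_sub, map_mul, map_zero, map_ofNat, zero_mul, add_zero]
    linear_combination hs
  · have h0 := y0_sq W
    rw [jK_apply, jK_apply] at h0
    refine (rep_eq_zero W (v := 2 * u * v - v ^ 2 * algebraMap k[X] (RatFunc k) (Lp W)
      + algebraMap k[X] (RatFunc k) (C ℓ) * v) ?_).1
    simp only [map_add, map_sub, map_mul, map_pow, map_ofNat]
    linear_combination hy - (algebraMap (RatFunc k) (KE W) v) ^ 2 * h0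

/-- **constants.**  `y ∈ K` with `y² + ℓ y = e` (`ℓ, e ∈ k`) and `σ y = -y - ℓ` is fixed by `σ`. -/
theorem sig_eq_self_of_const (hΔ : W.Δ ≠ 0) (ℓ e : k) (y : KE W)
    (hy : y ^ 2 + algebraMap k (KE W) ℓ * y = algebraMap k (KE W) e)
    (hs : sig W y = -y - algebraMap k (KE W) ℓ) : sig W y = y := by
  obtain ⟨u, v, rfl⟩ := exists_rep W y
  obtain ⟨hT, hN⟩ := Tors_relations W ℓ e u v hy hs
  have hinj := IsFractionRing.injective k[X] (RatFunc k)
  suffices hv : v = 0 by
    subst hv
    rw [map_zero, zero_mul, add_zero, AlgHom.commutes]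
  by_contra hv
  by_cases h2 : (2 : k) = 0
  · have h2' : (2 : RatFunc k) = 0 := by
      rw [← map_ofNat (algebraMap k (RatFunc k)) 2, h2, map_zero]
    have hT' : v * algebraMap k[X] (RatFunc k) (Lp W) = algebraMap k[X] (RatFunc k) (C ℓ) := by
      linear_combination u * h2' - hT
    by_cases hℓ : ℓ = 0
    · subst hℓ
      rw [map_zero, map_zero] at hT'
      have hL : algebraMap k[X] (RatFunc k) (Lp W) = 0 := (mul_eq_zero.mp hT').resolve_left hv
      have hL' : Lp W = 0 := hinj (by rw [hL, map_zero])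
      apply psi_ne_zero W hΔ
      have h4 : (4 : k[X]) = 0 := by
        have h4k : (4 : k) = 0 := by linear_combination 2 * h2
        rw [← map_ofNat (C : k →+* k[X]) 4, h4k, map_zero]
      rw [psi_eq, hL', h4]
      ring
    · refine no_ratFunc_root (C ℓ * Lp W) (C e * Lp W ^ 2 - C (ℓ ^ 2) * fp W)
        (u * algebraMap k[X] (RatFunc k) (Lp W)) ?_ ?_ ?_
      · exact (natDegree_C_mul_le _ _).trans (natDegree_Lp_le W)
      · have h1 : (C e * Lp W ^ 2).natDegree < (C (ℓ ^ 2) * fp W).natDegree := by
          rw [natDegree_C_mul (pow_ne_zero 2 hℓ), natDegree_fp]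
          refine lt_of_le_of_lt (natDegree_C_mul_le _ _) ?_
          refine lt_of_le_of_lt natDegree_pow_le ?_
          have := natDegree_Lp_le W
          omega
        rw [natDegree_sub_eq_right_of_natDegree_lt h1, natDegree_C_mul (pow_ne_zero 2 hℓ),
          natDegree_fp]
      · simp only [map_sub, map_mul, map_pow]
        linear_combination (algebraMap k[X] (RatFunc k) (Lp W)) ^ 2 * hN
          - algebraMap k[X] (RatFunc k) (fp W) * (v * algebraMap k[X] (RatFunc k) (Lp W)
            + algebraMap k[X] (RatFunc k) (C ℓ)) * hT'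
  · have h2' : (2 : RatFunc k) ≠ 0 := by
      intro h
      apply h2
      apply (algebraMap k (RatFunc k)).injective
      rw [map_ofNat, map_zero]
      exact h
    set δ : k := ℓ ^ 2 + 4 * e with hδ
    have key : v ^ 2 * algebraMap k[X] (RatFunc k) (psi W) = algebraMap k[X] (RatFunc k) (C δ) := by
      rw [psi_eq, hδ]
      simp only [map_add, map_mul, map_pow, map_ofNat]
      linear_combination 4 * hN - (2 * u + v * algebraMap k[X] (RatFunc k) (Lp W)
        + algebraMap k[X] (RatFunc k) (C ℓ)) * hT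
    have hψ : algebraMap k[X] (RatFunc k) (psi W) ≠ 0 := fun h =>
      psi_ne_zero W hΔ (hinj (by rw [h, map_zero]))
    have hδ0 : δ ≠ 0 := by
      intro h
      rw [h, map_zero, map_zero] at key
      exact (mul_ne_zero (pow_ne_zero 2 hv) hψ) key
    refine no_ratFunc_root 0 (C δ * psi W) (algebraMap k[X] (RatFunc k) (C δ) / v) ?_ ?_ ?_
    · simp
    · rw [natDegree_C_mul hδ0]
      have h4 : (4 : k) ≠ 0 := by
        have : (4 : k) = 2 * 2 := by norm_num
        rw [this]
        exact mul_ne_zero h2 h2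
      unfold psi
      compute_degree!
    · rw [map_zero, zero_mul, add_zero, map_mul, div_pow, div_eq_iff (pow_ne_zero 2 hv)]
      linear_combination (-algebraMap k[X] (RatFunc k) (C δ)) * key

end Fermat.Agent.S58.CH
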