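import Fermat.Agent.S58.CH.Frob
import Fermat.Agent.S58.CH.Tors
import Fermat.Prelude.Def_FLTPrelim_Modularity

/-!
# S58 / CH : Cayley-Hamilton at the generic point  (general Weierstrass equation)
-/

set_option autoImplicit false

namespace Fermat.Agent.S58.CH

open WeierstrassCurve WeierstrassCurve.Affine Polynomial Fermat.Agent.S52.CH

variable {k : Type*} [Field k] [Fintype k] {W : WeierstrassCurve.Affine k}

omit [Fintype k] in
/-- an odd point of degree `0` is 2-torsion -/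
lemma two_tors_of_HasD_zero (hΔ : W.Δ ≠ 0) {Z : PK W} (hZ : Z ∈ M W)
    (hD : HasD W Z 0) : Z + Z = 0 := by
  rcases Z with _ | ⟨x, y, h⟩
  · rfl
  obtain ⟨⟨r, rfl⟩, hs⟩ := odd_coords hΔ hZ
  obtain ⟨c, rfl⟩ := (Ht_zero_iff r).mp (HasD_some.mp hD)
  have heq := eq_of_equation h.1
  rw [← algebraMap_k] at heq hs
  have hs' : sig W y = -y - algebraMap k (KE W) (W.a₁ * c + W.a₃) := by
    rw [hs, map_add, map_mul]
    simp only [negY]
    change -y - algebraMap k (KE W) W.a₁ * _ - algebraMap k (KE W) W.a₃ = _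
    ring
  have hy : y ^ 2 + algebraMap k (KE W) (W.a₁ * c + W.a₃) * y
      = algebraMap k (KE W) (c ^ 3 + W.a₂ * c ^ 2 + W.a₄ * c + W.a₆) := by
    simp only [map_add, map_mul, map_pow]
    linear_combination heq
  have hfix := sig_eq_self_of_const W hΔ _ _ y hy hs'
  apply Point.add_self_of_Y_eq
  rw [← algebraMap_k, ← hs, hfix]

section main

variable (hΔ : W.Δ ≠ 0)

include hΔ in
theorem generic_CH :
    let η := eta W hΔ
    let F := Fr W (KE W)
    let Z := F (F η) - ((Fintype.card k : ℤ) + 1 - Nat.card W.toAffine.Point) • F η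
      + (Fintype.card k : ℤ) • η
    Z + Z = 0 := by
  intro η F Z
  set q : ℤ := (Fintype.card k : ℤ) with hq
  set N : ℤ := (Nat.card W.toAffine.Point : ℤ) with hN
  have hη : η ∈ M W := eta_mem_M hΔ
  have hFη : F η ∈ M W := Fr_mem_M hη
  have hFFη : F (F η) ∈ M W := Fr_mem_M hFη
  let p₁ : M W := ⟨F (F η), hFFη⟩
  let p₂ : M W := ⟨F η, hFη⟩
  let p₃ : M W := ⟨η, hη⟩
  let d : M W → ℤ := fun P => (dg W (P : PK W) : ℤ)
  have hpar : ∀ P Q : M W, d (P + Q) + d (P - Q) = 2 * d P + 2 * d Q :=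
    dg_parallelogram hΔ
  have key := quad_of_parallelogram d hpar p₁ p₂ p₃
  have d3 : d p₃ = 1 := by
    change (dg W η : ℤ) = 1
    rw [dg_eq (HasD_eta hΔ)]; rfl
  have d2 : d p₂ = q := by
    change (dg W (F η) : ℤ) = q
    rw [dg_eq (HasD_Fr (HasD_eta hΔ))]; simp [hq]
  have d1 : d p₁ = q ^ 2 := by
    change (dg W (F (F η)) : ℤ) = q ^ 2
    rw [dg_eq (HasD_Fr (HasD_Fr (HasD_eta hΔ)))]; simp [hq]; ring
  have d12 : d (p₁ + p₂) = q * d (p₂ + p₃) := by
    change (dg W (F (F η) + F η) : ℤ) = q * (dg W (F η + η) : ℤ)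
    have hmem : F η + η ∈ M W := (p₂ + p₃).2
    rw [← map_add, dg_eq (HasD_Fr (HasD_dg hΔ hmem))]
    simp [hq]
  have hNd : d (p₂ - p₃) = N := by
    change (dg W (F η - η) : ℤ) = N
    rw [dg_eq (HasD_Fr_eta_sub hΔ)]
  have hNpos : 0 < Nat.card W.toAffine.Point := Nat.card_pos
  have hNN : d (p₁ - p₂ - p₂ + p₃) = N ^ 2 := by
    obtain ⟨ψ, hψη, hψ⟩ := exists_subst hΔ (p₂ - p₃).2 hNpos (HasD_Fr_eta_sub hΔ)
    have h1 := hψ _ _ (HasD_Fr_eta_sub hΔ)
    have e : Point.map (W' := W) ψ (Fr W (KE W) (eta W hΔ) - eta W hΔ)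
        = F (F η) - F η - F η + η := by
      rw [map_sub, map_Fr, hψη]
      change F (F η - η) - (F η - η) = _
      rw [map_sub]
      abel
    rw [e] at h1
    change (dg W (F (F η) - F η - F η + η) : ℤ) = N ^ 2
    rw [dg_eq h1]
    push_cast
    ring
  have k1 := key 0 1 (-1)
  have k2 := key 1 (-2) 1
  have k3 := key 1 (-(q + 1 - N)) q
  have e1 : (0 : ℤ) • p₁ + (1 : ℤ) • p₂ + (-1 : ℤ) • p₃ = p₂ - p₃ := by
    simp [sub_eq_add_neg]
  have e2 : (1 : ℤ) • p₁ + (-2 : ℤ) • p₂ + (1 : ℤ) • p₃ = p₁ - p₂ - p₂ + p₃ := by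
    rw [one_smul, one_smul, neg_smul, two_smul]; abel
  rw [e1, hNd, d1, d2, d3] at k1
  rw [e2, hNN, d1, d2, d3, d12] at k2
  rw [d1, d2, d3, d12] at k3
  have hzero : d ((1 : ℤ) • p₁ + (-(q + 1 - N)) • p₂ + q • p₃) = 0 := by
    rw [k3]
    have s23 : d (p₂ + p₃) = 2 * q + 2 - N := by linear_combination k1
    rw [s23] at k2 ⊢
    have s13 : d (p₁ + p₃) = N ^ 2 - 4 * q + 2 * q * (q + 1 - N) + 2 * (q + 1 - N) := by
      linear_combination -k2
    rw [s13]
    ring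
  have hZ : (((1 : ℤ) • p₁ + (-(q + 1 - N)) • p₂ + q • p₃ : M W) : PK W) = Z := by
    simp only [AddSubgroup.coe_add, AddSubgroup.coe_zsmul, one_smul, neg_smul]
    rfl
  have hZM : Z ∈ M W := hZ ▸ ((1 : ℤ) • p₁ + (-(q + 1 - N)) • p₂ + q • p₃ : M W).2
  have hdZ : dg W Z = 0 := by
    have : (dg W Z : ℤ) = 0 := by rw [← hZ]; exact hzero
    exact_mod_cast this
  have := HasD_dg hΔ hZM
  rw [hdZ] at this
  exact two_tors_of_HasD_zero hΔ hZM this

end main

end Fermat.Agent.S58.CH
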