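import Fermat.Agent.S58.CH.Generic

/-!
# S58 / CH : Cayley-Hamilton for Frobenius on all points  (general Weierstrass equation)
-/

set_option autoImplicit false

namespace Fermat.Agent.S58.CH

open WeierstrassCurve WeierstrassCurve.Affine Polynomial Fermat.Agent.S52.CH

variable {k : Type*} [Field k] [Fintype k] (W : WeierstrassCurve.Affine k)

/-- the endomorphism `F² - aF + q` of `E(L)` -/
noncomputable def al (L : Type*) [Field L] [DecidableEq L] [Algebra k L]
    (P : (W⁄L).Point) : (W⁄L).Point :=
  Fr W L (Fr W L P) - ((Fintype.card k : ℤ) + 1 - Nat.card W.toAffine.Point) • Fr W L P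
    + (Fintype.card k : ℤ) • P

variable {W}

lemma al_add {L : Type*} [Field L] [DecidableEq L] [Algebra k L] (P Q : (W⁄L).Point) :
    al W L (P + Q) = al W L P + al W L Q := by
  simp only [al, map_add, smul_add]
  abel

lemma al_sub {L : Type*} [Field L] [DecidableEq L] [Algebra k L] (P Q : (W⁄L).Point) :
    al W L (P - Q) = al W L P - al W L Q := by
  simp only [al, map_sub, smul_sub]
  abel

lemma map_al {L L' : Type*} [Field L] [DecidableEq L] [Algebra k L] [Field L'] [DecidableEq L']
    [Algebra k L'] (ψ : L →ₐ[k] L') (P : (W⁄L).Point) :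
    Point.map (W' := W) ψ (al W L P) = al W L' (Point.map (W' := W) ψ P) := by
  simp only [al, map_add, map_sub, map_zsmul, map_Fr]

variable {Ω : Type*} [Field Ω] [DecidableEq Ω] [Algebra k Ω]

/-- CH at points with transcendental `x`-coordinate -/
lemma al_generic (hΔ : W.Δ ≠ 0) {x y : Ω}
    (h : (W⁄Ω).Nonsingular x y) (htr : Transcendental k x) :
    al W Ω (Point.some x y h) + al W Ω (Point.some x y h) = 0 := by
  have hη : Point.map (W' := W) (liftK x y htr (eq_of_equation h.1)) (eta W hΔ)
      = Point.some x y h := by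
    rw [eta, Point.map_some, Point.some.injEq]
    exact ⟨liftK_xK _ _ _ _, liftK_y0 _ _ _ _⟩
  rw [← hη, ← map_al, ← map_add]
  have := generic_CH hΔ
  simp only at this
  change al W (KE W) (eta W hΔ) + al W (KE W) (eta W hΔ) = 0 at this
  rw [this, map_zero]

/-- the subgroup of points with algebraic coordinates -/
noncomputable def algPts (W : WeierstrassCurve.Affine k) (Ω : Type*) [Field Ω] [DecidableEq Ω]
    [Algebra k Ω] : AddSubgroup (W⁄Ω).Point :=
  letI : DecidableEq (algebraicClosure k Ω) := Classical.decEq _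
  (Point.map (W' := W) (algebraicClosure k Ω).val).range

omit [Fintype k] in
lemma mem_algPts_of_isAlgebraic {x y : Ω} (h : (W⁄Ω).Nonsingular x y)
    (hx : IsAlgebraic k x) : Point.some x y h ∈ algPts W Ω := by
  letI : DecidableEq (algebraicClosure k Ω) := Classical.decEq _
  let x' : algebraicClosure k Ω := ⟨x, mem_algebraicClosure_iff.mpr hx⟩
  have hy : IsAlgebraic k y := by
    have hy' : IsAlgebraic (algebraicClosure k Ω) y := by
      refine ⟨X ^ 2 + C (algebraMap k _ W.a₁ * x' + algebraMap k _ W.a₃) * X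
        - C (x' ^ 3 + algebraMap k _ W.a₂ * x' ^ 2 + algebraMap k _ W.a₄ * x'
          + algebraMap k _ W.a₆), ?_, ?_⟩
      · apply Monic.ne_zero
        monicity!
      · have := eq_of_equation h.1
        simp only [map_sub, map_add, map_mul, map_pow, aeval_X, aeval_C]
        have e1 : algebraMap (algebraicClosure k Ω) Ω x' = x := rfl
        have e2 : ∀ c : k, algebraMap (algebraicClosure k Ω) Ω (algebraMap k _ c)
            = algebraMap k Ω c := fun c => rfl
        rw [e1, e2, e2, e2, e2, e2]
        linear_combination this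
    exact hy'.restrictScalars k
  let y' : algebraicClosure k Ω := ⟨y, mem_algebraicClosure_iff.mpr hy⟩
  have h' : (W⁄(algebraicClosure k Ω)).Nonsingular x' y' :=
    (W.baseChange_nonsingular (algebraicClosure k Ω).val.injective x' y').mp h
  exact ⟨Point.some x' y' h', rfl⟩

omit [Fintype k] in
lemma isAlgebraic_of_mem_algPts {x y : Ω} {h : (W⁄Ω).Nonsingular x y}
    (hm : Point.some x y h ∈ algPts W Ω) : IsAlgebraic k x := by
  letI : DecidableEq (algebraicClosure k Ω) := Classical.decEq _
  obtain ⟨P, hP⟩ := hm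
  rcases P with _ | ⟨x', y', h'⟩
  · exact absurd hP.symm (Point.some_ne_zero _)
  · rw [Point.map_some, Point.some.injEq] at hP
    rw [← hP.1]
    exact mem_algebraicClosure_iff.mp x'.2

/-- **Cayley-Hamilton for Frobenius** (up to the harmless factor 2). -/
theorem frobenius_CH [IsAlgClosed Ω] (hΔ : W.Δ ≠ 0)
    (τ : Ω) (hτ : Transcendental k τ) (P : (W⁄Ω).Point) :
    al W Ω P + al W Ω P = 0 := by
  have hΔ' : (W⁄Ω).Δ ≠ 0 := by
    change (W.map (algebraMap k Ω)).Δ ≠ 0
    rw [WeierstrassCurve.map_Δ]
    exact fun h => hΔ ((algebraMap k Ω).injective (by rw [h, map_zero]))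
  -- a generic point
  obtain ⟨y', hy'⟩ := IsAlgClosed.exists_root
    (X ^ 2 + C (algebraMap k Ω W.a₁ * τ + algebraMap k Ω W.a₃) * X
      - C (τ ^ 3 + algebraMap k Ω W.a₂ * τ ^ 2 + algebraMap k Ω W.a₄ * τ
        + algebraMap k Ω W.a₆) : Polynomial Ω) (by
      apply ne_of_gt
      have : (X ^ 2 + C (algebraMap k Ω W.a₁ * τ + algebraMap k Ω W.a₃) * X
        - C (τ ^ 3 + algebraMap k Ω W.a₂ * τ ^ 2 + algebraMap k Ω W.a₄ * τ
        + algebraMap k Ω W.a₆) : Polynomial Ω).degree = 2 := by compute_degree!
      rw [this]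
      norm_num)
  simp only [IsRoot, eval_sub, eval_add, eval_mul, eval_pow, eval_X, eval_C] at hy'
  have hns : (W⁄Ω).Nonsingular τ y' := by
    rw [← equation_iff_nonsingular_of_Δ_ne_zero hΔ', equation_iff]
    change y' ^ 2 + algebraMap k Ω W.a₁ * τ * y' + algebraMap k Ω W.a₃ * y'
      = τ ^ 3 + algebraMap k Ω W.a₂ * τ ^ 2 + algebraMap k Ω W.a₄ * τ + algebraMap k Ω W.a₆
    linear_combination hy'
  set η' : (W⁄Ω).Point := Point.some τ y' hns with hη'
  have hgen : al W Ω η' + al W Ω η' = 0 := al_generic hΔ hns hτ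
  by_cases hP : P ∈ algPts W Ω
  · -- `P + η'` is generic
    have hsum : P + η' ∉ algPts W Ω := by
      intro hs
      have : η' ∈ algPts W Ω := by
        have := (algPts W Ω).sub_mem hs hP
        simpa using this
      exact hτ (isAlgebraic_of_mem_algPts this)
    have hgen2 : al W Ω (P + η') + al W Ω (P + η') = 0 := by
      rcases hQ : P + η' with _ | ⟨x, y, h⟩
      · exact absurd (hQ ▸ (algPts W Ω).zero_mem) hsum
      · apply al_generic hΔ h
        intro halg
        exact hsum (hQ ▸ mem_algPts_of_isAlgebraic h halg)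
    have e : al W Ω P = al W Ω (P + η') - al W Ω η' := by
      rw [← al_sub]; simp
    rw [e]
    have : al W Ω (P + η') - al W Ω η' + (al W Ω (P + η') - al W Ω η')
        = (al W Ω (P + η') + al W Ω (P + η')) - (al W Ω η' + al W Ω η') := by abel
    rw [this, hgen, hgen2, sub_zero]
  · rcases P with _ | ⟨x, y, h⟩
    · exact absurd (algPts W Ω).zero_mem hP
    · apply al_generic hΔ h
      intro halg
      exact hP (mem_algPts_of_isAlgebraic h halg)

end Fermat.Agent.S58.CH
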