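import Fermat.Agent.S58.CH.FieldK
import Fermat.Agent.S52.CH.Odd

/-!
# S58 / CH : odd points over `K`, their degree, the parallelogram law  (general Weierstrass equation)
-/

set_option autoImplicit false

namespace Fermat.Agent.S58.CH

open WeierstrassCurve WeierstrassCurve.Affine Polynomial Fermat.Agent.S52.CH

variable {k : Type*} [Field k] (W : WeierstrassCurve.Affine k)

noncomputable instance : DecidableEq (KE W) := Classical.decEq _

/-- points over `K` -/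
abbrev PK := (W⁄(KE W)).Point

lemma xRep_map {L L' : Type*} [Field L] [Field L'] [DecidableEq L] [DecidableEq L']
    [Algebra k L] [Algebra k L']
    (ψ : L →ₐ[k] L') (P : (W⁄L).Point) (i : Fin 2) :
    (Point.map (W' := W) ψ P).xRep i = ψ (P.xRep i) := by
  rcases P with _ | ⟨x, y, h⟩
  · change (0 : (W⁄L').Point).xRep i = ψ ((0 : (W⁄L).Point).xRep i)
    fin_cases i <;> simp
  · rw [Point.map_some]
    fin_cases i <;> simp

/-- `P` has `x`-coordinate in `k(X)`, of degree `N`. -/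
def HasD (P : PK W) (N : ℕ) : Prop :=
  ∃ ξ : Fin 2 → RatFunc k, (∀ i, P.xRep i = algebraMap (RatFunc k) (KE W) (ξ i)) ∧ Ht ξ N

variable {W}

lemma HasD.unique {P : PK W} {N N' : ℕ} (h : HasD W P N) (h' : HasD W P N') : N = N' := by
  obtain ⟨ξ, hξ, hN⟩ := h
  obtain ⟨ξ', hξ', hN'⟩ := h'
  have : ξ = ξ' := by
    funext i
    exact algebraMap_injective W ((hξ i).symm.trans (hξ' i))
  subst this
  exact hN.unique hN'

variable (W)

/-- the action of `σ` on points -/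
noncomputable def Sg : PK W →+ PK W :=
  Point.map (W' := W) ((sig W).restrictScalars k)

/-- the group of odd points -/
noncomputable def M : AddSubgroup (PK W) := (Sg W + AddMonoidHom.id _).ker

variable {W}

lemma mem_M {P : PK W} : P ∈ M W ↔ Sg W P = -P := by
  rw [M, AddMonoidHom.mem_ker, AddMonoidHom.add_apply, AddMonoidHom.id_apply,
    eq_neg_iff_add_eq_zero]

lemma odd_coords (hΔ : W.Δ ≠ 0) {x y : KE W} {h : (W⁄(KE W)).Nonsingular x y}
    (hM : Point.some x y h ∈ M W) :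
    (∃ r : RatFunc k, x = algebraMap _ _ r) ∧ sig W y = (W⁄(KE W)).negY x y := by
  rw [mem_M, Sg, Point.map_some, Point.neg_some, Point.some.injEq] at hM
  obtain ⟨hx, hy⟩ := hM
  exact ⟨sig_fixed W hΔ hx, hy⟩

lemma exists_HasD (hΔ : W.Δ ≠ 0) {P : PK W} (hP : P ∈ M W) : ∃ N, HasD W P N := by
  rcases P with _ | ⟨x, y, h⟩
  · refine ⟨0, ![1, 0], fun i => ?_, Ht_infty⟩
    change (0 : PK W).xRep i = _
    fin_cases i <;> simp
  · obtain ⟨⟨r, rfl⟩, -⟩ := odd_coords hΔ hP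
    obtain ⟨N, hN⟩ := Ht.exists_pair r
    refine ⟨N, ![r, 1], fun i => ?_, hN⟩
    fin_cases i <;> simp

lemma HasD_zero : HasD W (0 : PK W) 0 := by
  refine ⟨![1, 0], fun i => ?_, Ht_infty⟩
  fin_cases i <;> simp

lemma HasD_some {r : RatFunc k} {y : KE W}
    {h : (W⁄(KE W)).Nonsingular (algebraMap _ _ r) y} {N : ℕ} :
    HasD W (Point.some _ y h) N ↔ Ht ![r, 1] N := by
  constructor
  · rintro ⟨ξ, hξ, hN⟩
    have h0 := hξ 0
    have h1 := hξ 1
    simp only [Point.xRep_some, Matrix.cons_val_zero, Matrix.cons_val_one] at h0 h1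
    have e0 : ξ 0 = r := (algebraMap_injective W h0).symm
    have e1 : ξ 1 = 1 := (algebraMap_injective W (by rw [← h1, map_one]))
    have : ξ = ![r, 1] := by
      funext i
      fin_cases i
      · exact e0
      · exact e1
    rwa [this] at hN
  · intro hN
    refine ⟨![r, 1], fun i => ?_, hN⟩
    fin_cases i <;> simp

lemma HasD_some' {x y : KE W} {h : (W⁄(KE W)).Nonsingular x y} {r : RatFunc k}
    (hx : x = algebraMap _ _ r) {N : ℕ} : HasD W (Point.some x y h) N ↔ Ht ![r, 1] N := by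
  subst hx
  exact HasD_some

lemma algebraMap_k (c : k) :
    algebraMap k (KE W) c = algebraMap (RatFunc k) (KE W) (RatFunc.C c) := by
  rw [IsScalarTower.algebraMap_apply k (RatFunc k) (KE W), RatFunc.algebraMap_eq_C]

lemma HasD_parallelogram (hΔ : W.Δ ≠ 0) {P Q : PK W}
    {n₁ n₂ n₃ n₄ : ℕ} (h₁ : HasD W P n₁) (h₂ : HasD W Q n₂) (h₃ : HasD W (P + Q) n₃)
    (h₄ : HasD W (P - Q) n₄) : n₃ + n₄ = 2 * n₁ + 2 * n₂ := by
  obtain ⟨ξ₁, hξ₁, hN₁⟩ := h₁
  obtain ⟨ξ₂, hξ₂, hN₂⟩ := h₂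
  obtain ⟨ξ₃, hξ₃, hN₃⟩ := h₃
  obtain ⟨ξ₄, hξ₄, hN₄⟩ := h₄
  refine parallelogram W.b₂ W.b₄ W.b₆ W.b₈ W.b_relation hΔ hN₁ hN₂ hN₃ hN₄ ?_
  obtain ⟨c, hc, hrel⟩ := sym2x_add_sub (W⁄(KE W)) P Q
  set f := algebraMap (RatFunc k) (KE W) with hf
  have e34 : (P + Q).sym2x (P - Q) = fun i => f (sym2 ξ₃ ξ₄ i) := by
    rw [← sym2_map]
    have a3 : (P + Q).xRep = fun i => f (ξ₃ i) := funext hξ₃
    have a4 : (P - Q).xRep = fun i => f (ξ₄ i) := funext hξ₄
    rw [← a3, ← a4]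
    rfl
  have e12 : phi (W⁄(KE W)).b₂ (W⁄(KE W)).b₄ (W⁄(KE W)).b₆
      (W⁄(KE W)).b₈ (P.sym2x Q) = fun i => f (phi (RatFunc.C W.b₂)
        (RatFunc.C W.b₄) (RatFunc.C W.b₆) (RatFunc.C W.b₈)
        (sym2 ξ₁ ξ₂) i) := by
    rw [← phi_map, ← sym2_map]
    have a1 : P.xRep = fun i => f (ξ₁ i) := funext hξ₁
    have a2 : Q.xRep = fun i => f (ξ₂ i) := funext hξ₂
    rw [← a1, ← a2]
    have b2 : (W⁄(KE W)).b₂ = f (RatFunc.C W.b₂) := by
      rw [hf, ← algebraMap_k]; exact WeierstrassCurve.map_b₂ _ _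
    have b4 : (W⁄(KE W)).b₄ = f (RatFunc.C W.b₄) := by
      rw [hf, ← algebraMap_k]; exact WeierstrassCurve.map_b₄ _ _
    have b6 : (W⁄(KE W)).b₆ = f (RatFunc.C W.b₆) := by
      rw [hf, ← algebraMap_k]; exact WeierstrassCurve.map_b₆ _ _
    have b8 : (W⁄(KE W)).b₈ = f (RatFunc.C W.b₈) := by
      rw [hf, ← algebraMap_k]; exact WeierstrassCurve.map_b₈ _ _
    rw [b2, b4, b6, b8]
    rfl
  rw [e34, e12] at hrel
  set s := sym2 ξ₃ ξ₄ with hs
  set t := phi (RatFunc.C W.b₂) (RatFunc.C W.b₄) (RatFunc.C W.b₆)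
    (RatFunc.C W.b₈) (sym2 ξ₁ ξ₂) with ht
  have hne : (P + Q).sym2x (P - Q) ≠ 0 := Point.sym2x_ne_zero _ _
  rw [e34] at hne
  obtain ⟨i, hi⟩ : ∃ i, f (s i) ≠ 0 := by
    by_contra hcon
    push Not at hcon
    exact hne (funext hcon)
  have hreli := congrFun hrel i
  simp only [Pi.smul_apply, smul_eq_mul] at hreli
  have hti : f (t i) ≠ 0 := by
    intro h0
    rw [h0, mul_zero] at hreli
    exact hi hreli
  have hti' : t i ≠ 0 := fun h0 => hti (by rw [h0, map_zero])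
  have hsi' : s i ≠ 0 := fun h0 => hi (by rw [h0, map_zero])
  have hc' : c = f (s i / t i) := by
    rw [map_div₀, hreli, mul_div_assoc, div_self hti, mul_one]
  refine ⟨s i / t i, div_ne_zero hsi' hti', funext fun j => ?_⟩
  apply algebraMap_injective W
  have hrelj := congrFun hrel j
  simp only [Pi.smul_apply, smul_eq_mul] at hrelj ⊢
  rw [map_mul, ← hf, ← hc', hrelj]

variable (W)

open Classical in
/-- the degree of (the `x`-coordinate of) an odd point -/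
noncomputable def dg (P : PK W) : ℕ := if h : ∃ N, HasD W P N then h.choose else 0

variable {W}

lemma dg_eq {P : PK W} {N : ℕ} (h : HasD W P N) : dg W P = N := by
  have hex : ∃ N, HasD W P N := ⟨N, h⟩
  rw [dg, dif_pos hex]
  exact hex.choose_spec.unique h

lemma HasD_dg (hΔ : W.Δ ≠ 0) {P : PK W} (hP : P ∈ M W) : HasD W P (dg W P) := by
  obtain ⟨N, hN⟩ := exists_HasD hΔ hP
  rwa [dg_eq hN]

lemma dg_parallelogram (hΔ : W.Δ ≠ 0) (P Q : M W) :
    (dg W ((P + Q : M W) : PK W) : ℤ) + dg W ((P - Q : M W) : PK W)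
      = 2 * dg W (P : PK W) + 2 * dg W (Q : PK W) := by
  have := HasD_parallelogram hΔ (HasD_dg hΔ P.2) (HasD_dg hΔ Q.2) (HasD_dg hΔ (P + Q).2)
    (HasD_dg hΔ (P - Q).2)
  exact_mod_cast this

end Fermat.Agent.S58.CH
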