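import Fermat.Agent.S58.CH.FieldK
import Fermat.Agent.S58.Contracts

/-!
# S58 / CH / Spec : from Cayley-Hamilton at the generic point to `CHStatement`
(port of `S52/CH/Main.lean` + `S52/CH/Export.lean` to a general Weierstrass equation; independent of the ports of `Odd`, `Frob`, `Generic`)

`Sp.GenCH W` : `2 (F² - a F + q) η = 0` for the generic point `η = (xK W, y0 W)` of `W` over `KE W`.
`Sp.chStatement_of_genCH : (∀ p C, C.Δ ≠ 0 → GenCH C) → CHStatement`.
-/

set_option autoImplicit false
set_option linter.unusedSectionVars false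
set_option linter.style.haveILetI false

namespace Fermat.Agent.S58.CH.Sp

open WeierstrassCurve WeierstrassCurve.Affine Polynomial

variable {k : Type*} [Field k] [Fintype k] (W : WeierstrassCurve k)

/-- Frobenius on `L`-points -/
noncomputable def Fr (L : Type*) [Field L] [DecidableEq L] [Algebra k L] :
    (W⁄L).Point →+ (W⁄L).Point :=
  Point.map (W' := W) (FiniteField.frobeniusAlgHom k L)

/-- the endomorphism `F² - aF + q` of `E(L)` -/
noncomputable def al (L : Type*) [Field L] [DecidableEq L] [Algebra k L]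
    (P : (W⁄L).Point) : (W⁄L).Point :=
  Fr W L (Fr W L P) - ((Fintype.card k : ℤ) + 1 - Nat.card W.toAffine.Point) • Fr W L P
    + (Fintype.card k : ℤ) • P

/-- Cayley-Hamilton at the generic point (for any decidability instance on `KE W`). -/
def GenCH : Prop :=
  ∀ (_ : DecidableEq (KE W)) (h : (W⁄(KE W)).Nonsingular (xK W) (y0 W)),
    al W (KE W) (Point.some _ _ h) + al W (KE W) (Point.some _ _ h) = 0

variable {W}

lemma map_Fr {L L' : Type*} [Field L] [DecidableEq L] [Algebra k L] [Field L'] [DecidableEq L']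
    [Algebra k L'] (ψ : L →ₐ[k] L') (P : (W⁄L).Point) :
    Point.map (W' := W) ψ (Fr W L P) = Fr W L' (Point.map (W' := W) ψ P) := by
  have e : ψ.comp (FiniteField.frobeniusAlgHom k L) = (FiniteField.frobeniusAlgHom k L').comp ψ := by
    ext x
    change ψ (x ^ Fintype.card k) = (ψ x) ^ Fintype.card k
    rw [map_pow]
  simp only [Fr, Point.map_map, e]

lemma al_sub {L : Type*} [Field L] [DecidableEq L] [Algebra k L] (P Q : (W⁄L).Point) :
    al W L (P - Q) = al W L P - al W L Q := by
  simp only [al, map_sub, smul_sub]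
  abel

lemma map_al {L L' : Type*} [Field L] [DecidableEq L] [Algebra k L] [Field L'] [DecidableEq L']
    [Algebra k L'] (ψ : L →ₐ[k] L') (P : (W⁄L).Point) :
    Point.map (W' := W) ψ (al W L P) = al W L' (Point.map (W' := W) ψ P) := by
  simp only [al, map_add, map_sub, map_zsmul, map_Fr]

variable {Ω : Type*} [Field Ω] [DecidableEq Ω] [Algebra k Ω]

lemma eq_of_equation {x y : Ω} (h : (W⁄Ω).Equation x y) :
    y ^ 2 + algebraMap k Ω W.a₁ * x * y + algebraMap k Ω W.a₃ * y
      = x ^ 3 + algebraMap k Ω W.a₂ * x ^ 2 + algebraMap k Ω W.a₄ * x + algebraMap k Ω W.a₆ := by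
  rw [equation_iff] at h
  simpa using h

lemma Δ_ne_zero (hΔ : W.Δ ≠ 0) (L : Type*) [Field L] [Algebra k L] : (W⁄L).Δ ≠ 0 := by
  change (W.map (algebraMap k L)).Δ ≠ 0
  rw [WeierstrassCurve.map_Δ]
  exact fun h => hΔ ((algebraMap k L).injective (by rw [h, map_zero]))

lemma nonsingular_eta (hΔ : W.Δ ≠ 0) : (W⁄(KE W)).Nonsingular (xK W) (y0 W) := by
  rw [← equation_iff_nonsingular_of_Δ_ne_zero (Δ_ne_zero hΔ (KE W)), equation_iff]
  have := y0_sq' W
  simpa using this

/-- CH at points with transcendental `x`-coordinate -/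
lemma al_generic (hΔ : W.Δ ≠ 0) (hg : GenCH W) {x y : Ω}
    (h : (W⁄Ω).Nonsingular x y) (htr : Transcendental k x) :
    al W Ω (Point.some x y h) + al W Ω (Point.some x y h) = 0 := by
  classical
  have hη : Point.map (W' := W) (liftK x y htr (eq_of_equation h.1))
      (Point.some _ _ (nonsingular_eta hΔ)) = Point.some x y h := by
    rw [Point.map_some, Point.some.injEq]
    exact ⟨liftK_xK _ _ _ _, liftK_y0 _ _ _ _⟩
  rw [← hη, ← map_al, ← map_add, hg _ (nonsingular_eta hΔ), map_zero]

/-- the subgroup of points with algebraic coordinates -/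
noncomputable def algPts (W : WeierstrassCurve k) (Ω : Type*) [Field Ω] [DecidableEq Ω]
    [Algebra k Ω] : AddSubgroup (W⁄Ω).Point :=
  letI : DecidableEq (algebraicClosure k Ω) := Classical.decEq _
  (Point.map (W' := W) (algebraicClosure k Ω).val).range

lemma mem_algPts_of_isAlgebraic {x y : Ω} (h : (W⁄Ω).Nonsingular x y)
    (hx : IsAlgebraic k x) : Point.some x y h ∈ algPts W Ω := by
  letI : DecidableEq (algebraicClosure k Ω) := Classical.decEq _
  have hy : IsAlgebraic k y := by
    -- `y` is a root of a monic quadratic over the field of algebraic elements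
    let x' : algebraicClosure k Ω := ⟨x, mem_algebraicClosure_iff.mpr hx⟩
    have hint : IsIntegral (algebraicClosure k Ω) y := by
      refine ⟨X ^ 2 + C (algebraMap k _ W.a₁ * x' + algebraMap k _ W.a₃) * X
        - C (x' ^ 3 + algebraMap k _ W.a₂ * x' ^ 2 + algebraMap k _ W.a₄ * x' + algebraMap k _ W.a₆),
        by monicity!, ?_⟩
      have := eq_of_equation h.1
      simp only [eval₂_sub, eval₂_add, eval₂_mul, eval₂_pow, eval₂_X, eval₂_C, map_add, map_mul,
        map_pow]
      have e : ∀ c : k, algebraMap (algebraicClosure k Ω) Ω (algebraMap k _ c) = algebraMap k Ω c :=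
        fun c => rfl
      have ex : algebraMap (algebraicClosure k Ω) Ω x' = x := rfl
      rw [e, e, e, e, e, ex]
      linear_combination this
    have : Algebra.IsAlgebraic k (algebraicClosure k Ω) := inferInstance
    exact (hint.isAlgebraic).restrictScalars k
  let x' : algebraicClosure k Ω := ⟨x, mem_algebraicClosure_iff.mpr hx⟩
  let y' : algebraicClosure k Ω := ⟨y, mem_algebraicClosure_iff.mpr hy⟩
  have h' : (W⁄(algebraicClosure k Ω)).Nonsingular x' y' :=
    (baseChange_nonsingular (W := W) (f := (algebraicClosure k Ω).val)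
      (algebraicClosure k Ω).val.injective x' y').mp h
  exact ⟨Point.some x' y' h', rfl⟩

lemma isAlgebraic_of_mem_algPts {x y : Ω} {h : (W⁄Ω).Nonsingular x y}
    (hm : Point.some x y h ∈ algPts W Ω) : IsAlgebraic k x := by
  letI : DecidableEq (algebraicClosure k Ω) := Classical.decEq _
  obtain ⟨P, hP⟩ := hm
  rcases P with _ | ⟨x', y', h'⟩
  · exact absurd hP.symm (Point.some_ne_zero _)
  · rw [Point.map_some, Point.some.injEq] at hP
    rw [← hP.1]
    exact mem_algebraicClosure_iff.mp x'.2

/-- **Cayley-Hamilton for Frobenius** (up to the harmless factor 2). -/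
theorem frobenius_CH [IsAlgClosed Ω] (hΔ : W.Δ ≠ 0) (hg : GenCH W)
    (τ : Ω) (hτ : Transcendental k τ) (P : (W⁄Ω).Point) :
    al W Ω P + al W Ω P = 0 := by
  -- a generic point
  obtain ⟨y', hy'⟩ := IsAlgClosed.exists_root
    (X ^ 2 + C (algebraMap k Ω W.a₁ * τ + algebraMap k Ω W.a₃) * X
      - C (τ ^ 3 + algebraMap k Ω W.a₂ * τ ^ 2 + algebraMap k Ω W.a₄ * τ + algebraMap k Ω W.a₆))
    (by
      have : (X ^ 2 + C (algebraMap k Ω W.a₁ * τ + algebraMap k Ω W.a₃) * X
        - C (τ ^ 3 + algebraMap k Ω W.a₂ * τ ^ 2 + algebraMap k Ω W.a₄ * τ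
          + algebraMap k Ω W.a₆)).degree = 2 := by compute_degree!
      rw [this]; norm_num)
  have hns : (W⁄Ω).Nonsingular τ y' := by
    rw [← equation_iff_nonsingular_of_Δ_ne_zero (Δ_ne_zero hΔ Ω), equation_iff]
    simp only [IsRoot.def, eval_sub, eval_add, eval_mul, eval_pow, eval_X, eval_C] at hy'
    show y' ^ 2 + algebraMap k Ω W.a₁ * τ * y' + algebraMap k Ω W.a₃ * y'
      = τ ^ 3 + algebraMap k Ω W.a₂ * τ ^ 2 + algebraMap k Ω W.a₄ * τ + algebraMap k Ω W.a₆
    linear_combination hy'
  set η' : (W⁄Ω).Point := Point.some τ y' hns with hη'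
  have hgen : al W Ω η' + al W Ω η' = 0 := al_generic hΔ hg hns hτ
  by_cases hP : P ∈ algPts W Ω
  · -- `P + η'` is generic
    have hsum : P + η' ∉ algPts W Ω := by
      intro hs
      have : η' ∈ algPts W Ω := by
        have := (algPts W Ω).sub_mem hs hP
        simpa using this
      exact hτ (isAlgebraic_of_mem_algPts this)
    have hgen2 : al W Ω (P + η') + al W Ω (P + η') = 0 := by
      rcases hQ : P + η' with _ | ⟨x, y, h⟩
      · exact absurd (hQ ▸ (algPts W Ω).zero_mem) hsum
      · apply al_generic hΔ hg h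
        intro halg
        exact hsum (hQ ▸ mem_algPts_of_isAlgebraic h halg)
    have e : al W Ω P = al W Ω (P + η') - al W Ω η' := by
      rw [← al_sub]; simp
    rw [e]
    have : al W Ω (P + η') - al W Ω η' + (al W Ω (P + η') - al W Ω η')
        = (al W Ω (P + η') + al W Ω (P + η')) - (al W Ω η' + al W Ω η') := by abel
    rw [this, hgen, hgen2, sub_zero]
  · rcases P with _ | ⟨x, y, h⟩
    · exact absurd (algPts W Ω).zero_mem hP
    · apply al_generic hΔ hg h
      intro halg
      exact hP (mem_algPts_of_isAlgebraic h halg)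

end Fermat.Agent.S58.CH.Sp

namespace Fermat.Agent.S58.CH.Sp

open WeierstrassCurve WeierstrassCurve.Affine Fermat.Agent.S52

theorem Fr_eq_frobPt (p : ℕ) [Fact p.Prime] (C : WeierstrassCurve (ZMod p)) {Ω : Type*} [Field Ω]
    [DecidableEq Ω] [Algebra (ZMod p) Ω] (P : (C⁄Ω).Point) :
    Fr C Ω P = frobPt p C P := by
  have h : FiniteField.frobeniusAlgHom (ZMod p) Ω = frobAlg p Ω := by
    ext x
    rw [FiniteField.coe_frobeniusAlgHom, frobAlg_apply, ZMod.card]
  change Point.map (W' := C) (FiniteField.frobeniusAlgHom (ZMod p) Ω) P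
    = Point.map (W' := C) (frobAlg p Ω) P
  rw [h]

/-- **[CH]** from Cayley-Hamilton at the generic points. -/
theorem chStatement_of_genCH
    (H : ∀ (p : ℕ) [Fact p.Prime] (C : WeierstrassCurve (ZMod p)), C.Δ ≠ 0 → GenCH C) :
    CHStatement := by
  intro p _ C hΔ Ω _ _ _ hΩ P
  classical
  obtain ⟨τ, hτ⟩ := hΩ
  let Ω' := AlgebraicClosure Ω
  let ψ : Ω →ₐ[ZMod p] Ω' := IsScalarTower.toAlgHom (ZMod p) Ω Ω'
  have hτ' : Transcendental (ZMod p) (ψ τ) := by
    intro h
    exact hτ ((isAlgebraic_algHom_iff ψ ψ.injective).mp h)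
  have hcomm : ∀ Q : (C⁄Ω).Point,
      Point.map (W' := C) ψ (frobPt p C Q) = frobPt p C (Point.map (W' := C) ψ Q) := by
    intro Q
    rw [← Fr_eq_frobPt, ← Fr_eq_frobPt]
    exact map_Fr ψ Q
  have h := frobenius_CH hΔ (H p C hΔ) (ψ τ) hτ' (Point.map (W' := C) ψ P)
  apply Point.map_injective (W' := C) ψ
  rw [map_zero, map_zsmul, map_add, map_sub, map_zsmul, map_zsmul, hcomm, hcomm]
  have ht : C.traceOfFrobenius = (p : ℤ) + 1 - Nat.card C.toAffine.Point := by
    rw [WeierstrassCurve.traceOfFrobenius, WeierstrassCurve.card, Nat.card_zmod]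
  rw [ht, two_zsmul]
  simp only [al, Fr_eq_frobPt, ZMod.card] at h
  exact h

end Fermat.Agent.S58.CH.Sp
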